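import Fermat.Agent.Corollaries.PP.Three

/-!
# Perfect powers in some sequences

Elementary consequences of the equations `A xᵖ + B yᵖ = z²`, `z³` (`PP/Two`, `PP/Three`):
`z² ± 2ᵏ = xᵖ` (Lebesgue, Ramanujan, Nagell), the Pell equations `z² - d w²ᵖ = ± 1`, the
Fibonacci numbers, the triangular and the pentagonal numbers.
-/

set_option autoImplicit false

namespace Fermat.Agent.Cor

variable {p : ℕ}

/-- **`z² + 2ᵏ ≠ xᵖ`** for `x` odd and `k ≥ 6`. -/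
theorem sq_add_two_pow_ne_pow (hp : p.Prime) (hp6 : 6 ≤ p) (hirr : SemistableIrred p) {x : ℤ}
    (hx : ¬ (2 : ℤ) ∣ x) {k : ℕ} (hk : 6 ≤ k) (z : ℤ) : z ^ 2 + 2 ^ k ≠ x ^ p := by
  intro h
  have hodd : Odd p := hp.odd_of_ne_two (by omega)
  have hx0 : x ≠ 0 := fun h0 => hx (by rw [h0]; exact dvd_zero 2)
  refine pow_add_two_pow_mul_pow_ne_sq hp hp6 hirr hx0 (y := -1) (by norm_num)
    isCoprime_one_right.neg_right hx (Or.inl hk) z ?_
  rw [hodd.neg_one_pow]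
  linarith

/-- **`z² - 2ᵏ ≠ xᵖ`** for `x` odd and `k ≥ 6`. -/
theorem sq_sub_two_pow_ne_pow (hp : p.Prime) (hp6 : 6 ≤ p) (hirr : SemistableIrred p) {x : ℤ}
    (hx : ¬ (2 : ℤ) ∣ x) {k : ℕ} (hk : 6 ≤ k) (z : ℤ) : z ^ 2 - 2 ^ k ≠ x ^ p := by
  intro h
  have hx0 : x ≠ 0 := fun h0 => hx (by rw [h0]; exact dvd_zero 2)
  refine pow_add_two_pow_mul_pow_ne_sq hp hp6 hirr hx0 (y := 1) one_ne_zero
    isCoprime_one_right hx (Or.inl hk) z ?_
  rw [one_pow]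
  linarith

/-- **`z² + 2ᵏ ℓᵐ ≠ xᵖ`** for `ℓ = 3, 5`, `x` prime to `2 ℓ` and `k ≥ 6`. -/
theorem sq_add_mul_pow_ne_pow (hp : p.Prime) (hp6 : 6 ≤ p) (hirr : SemistableIrred p)
    {ℓ : ℕ} (hℓ : ℓ = 3 ∨ ℓ = 5) {x : ℤ} (hx0 : x ≠ 0) (hx : IsCoprime x (2 * ℓ)) {k m : ℕ}
    (hk : 6 ≤ k) (z : ℤ) : z ^ 2 + 2 ^ k * (ℓ : ℤ) ^ m ≠ x ^ p := by
  intro h
  have hodd : Odd p := hp.odd_of_ne_two (by omega)
  refine pow_add_mul_pow_ne_sq hp hp6 hirr hℓ hx0 (y := -1) (by norm_num) (k := k) (m := m)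
    (by rw [mul_neg_one]; exact hx.neg_right) (Or.inl hk) z ?_
  rw [hodd.neg_one_pow]
  linarith

/-- **`z² - 2ᵏ ℓᵐ ≠ xᵖ`** for `ℓ = 3, 5`, `x` prime to `2 ℓ` and `k ≥ 6`. -/
theorem sq_sub_mul_pow_ne_pow (hp : p.Prime) (hp6 : 6 ≤ p) (hirr : SemistableIrred p)
    {ℓ : ℕ} (hℓ : ℓ = 3 ∨ ℓ = 5) {x : ℤ} (hx0 : x ≠ 0) (hx : IsCoprime x (2 * ℓ)) {k m : ℕ}
    (hk : 6 ≤ k) (z : ℤ) : z ^ 2 - 2 ^ k * (ℓ : ℤ) ^ m ≠ x ^ p := by
  intro h
  refine pow_add_mul_pow_ne_sq hp hp6 hirr hℓ hx0 (y := 1) one_ne_zero (k := k) (m := m)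
    (by rw [mul_one]; exact hx) (Or.inl hk) z ?_
  rw [one_pow]
  linarith

/-- **`z³ + 2ᵐ 3ᵏ ≠ xᵖ`** for `x` prime to `6` and `k ≥ 3`. -/
theorem cube_add_mul_pow_ne_pow (hp : p.Prime) (hp3 : 3 ≤ p) (hirr : SemistableIrred p)
    {x : ℤ} (hx : IsCoprime x 6) {k m : ℕ} (hk : 3 ≤ k) (z : ℤ) :
    z ^ 3 + 2 ^ m * 3 ^ k ≠ x ^ p := by
  intro h
  have hodd : Odd p := hp.odd_of_ne_two (by omega)
  have hx0 : x ≠ 0 := by
    rintro rfl
    have h6 : IsUnit (6 : ℤ) := isCoprime_zero_left.mp hx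
    exact absurd (Int.isUnit_iff.mp h6) (by norm_num)
  refine pow_add_mul_pow_ne_cube hp hp3 hirr hx0 (y := -1) (by norm_num) (k := k) (m := m)
    (by rw [mul_neg_one]; exact hx.neg_right) (Or.inl hk) z ?_
  rw [hodd.neg_one_pow]
  linarith

/-- **`z³ - 2ᵐ 3ᵏ ≠ xᵖ`** for `x` prime to `6` and `k ≥ 3`. -/
theorem cube_sub_mul_pow_ne_pow (hp : p.Prime) (hp3 : 3 ≤ p) (hirr : SemistableIrred p)
    {x : ℤ} (hx : IsCoprime x 6) {k m : ℕ} (hk : 3 ≤ k) (z : ℤ) :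
    z ^ 3 - 2 ^ m * 3 ^ k ≠ x ^ p := by
  intro h
  have hx0 : x ≠ 0 := by
    rintro rfl
    have h6 : IsUnit (6 : ℤ) := isCoprime_zero_left.mp hx
    exact absurd (Int.isUnit_iff.mp h6) (by norm_num)
  refine pow_add_mul_pow_ne_cube hp hp3 hirr hx0 (y := 1) one_ne_zero (k := k) (m := m)
    (by rw [mul_one]; exact hx) (Or.inl hk) z ?_
  rw [one_pow]
  linarith

/-! ### The Pell equation -/

/-- `z² = d w²ᵖ ± 1` with `64 ∣ d w²ᵖ`: no solution with `w ≠ 0` if the odd primes of `d` divide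
an even level `L` of genus zero (so `d = 2ᵃ 3ᵇ` or `2ᵃ 5ᵇ`). -/
theorem pell_core (hp : p.Prime) (hp6 : 6 ≤ p) (hirr : SemistableIrred p) {d w z e : ℤ}
    (he : e = 1 ∨ e = -1) (h : z ^ 2 = d * (w ^ p) ^ 2 + e) (hw : w ≠ 0) (hd : d ≠ 0)
    (h64 : (64 : ℤ) ∣ d * (w ^ p) ^ 2) {L : ℕ} (hL : L ∈ zeroLevels) (h2L : 2 ∣ L)
    (hdL : ∀ q : ℕ, q.Prime → q ≠ 2 → (q : ℤ) ∣ d → q ∣ L) : False := by
  have hodd : Odd p := hp.odd_of_ne_two (by omega)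
  have hep : e ^ p = e := by
    rcases he with rfl | rfl
    · exact one_pow p
    · exact hodd.neg_one_pow
  have he0 : e ≠ 0 := by rcases he with rfl | rfl <;> norm_num
  have hcop : IsCoprime e (d * w ^ 2) := by
    rcases he with rfl | rfl
    · exact isCoprime_one_left
    · exact isCoprime_one_left.neg_left
  have hpow : (w ^ 2) ^ p = (w ^ p) ^ 2 := by rw [← pow_mul, ← pow_mul, mul_comm]
  refine two_coeff (A := 1) (x := e) (B := d) (y := w ^ 2) (z := z) (L := L) hp (by omega) hirr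
    ?_ (by rw [one_mul]; exact hcop) (by rwa [hpow]) (by rwa [one_mul])
    (mul_ne_zero hd (pow_ne_zero _ hw)) hL ?_ hdL (Or.inl h2L)
  · rw [one_mul, hep, h, hpow]
    ring
  · intro q hq _ h1
    have h3 : q ∣ 1 := by exact_mod_cast h1
    exact absurd (Nat.dvd_one.mp h3) hq.ne_one

/-- squares modulo `8` -/
theorem sq_emod_eight (z : ℤ) : z ^ 2 % 8 = 0 ∨ z ^ 2 % 8 = 1 ∨ z ^ 2 % 8 = 4 := by
  have h : z % 8 = 0 ∨ z % 8 = 1 ∨ z % 8 = 2 ∨ z % 8 = 3 ∨ z % 8 = 4 ∨ z % 8 = 5 ∨ z % 8 = 6 ∨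
      z % 8 = 7 := by omega
  rcases h with h | h | h | h | h | h | h | h <;> simp [pow_two, Int.mul_emod, h]

/-- **The Pell equation**: in a solution of `z² - d Y² = 1`, `d = 2, 5, 6, 10`, the number
`Y ≠ 0` is never a `p`-th power. -/
theorem pell_ne (hp : p.Prime) (hp6 : 6 ≤ p) (hirr : SemistableIrred p) {d : ℕ}
    (hd : d ∈ [2, 5, 6, 10]) {w z : ℤ} (hw : w ≠ 0) :
    z ^ 2 - (d : ℤ) * (w ^ p) ^ 2 ≠ 1 := by
  intro h
  have key : ∀ d ∈ [2, 5, 6, 10], d ≠ 0 ∧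
      (d % 8 = 2 ∨ d % 8 = 5 ∨ d % 8 = 6) := by decide
  obtain ⟨hd0, hd8⟩ := key d hd
  have h1 : z ^ 2 = (d : ℤ) * (w ^ p) ^ 2 + 1 := by linarith
  -- `w` is even
  have h2 : (2 : ℤ) ∣ w := by
    by_contra hcon
    have h3 : ¬ (2 : ℤ) ∣ w ^ p := fun h => hcon (Int.prime_two.dvd_of_dvd_pow h)
    have h4 : (w ^ p) ^ 2 % 8 = 1 := by
      have h5 : w ^ p % 8 = 1 ∨ w ^ p % 8 = 3 ∨ w ^ p % 8 = 5 ∨ w ^ p % 8 = 7 := by omega
      rcases h5 with h5 | h5 | h5 | h5 <;>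
        rw [pow_two, Int.mul_emod, h5] <;> norm_num
    have h6 : (z ^ 2) % 8 = (d + 1) % 8 := by
      rw [h1, Int.add_emod, Int.mul_emod, h4, mul_one, Int.emod_emod_of_dvd _ dvd_rfl,
        ← Int.add_emod]
    rcases sq_emod_eight z with h7 | h7 | h7 <;> omega
  have h64 : (64 : ℤ) ∣ (d : ℤ) * (w ^ p) ^ 2 :=
    ((sixtyfour_dvd hp6 h2).trans (dvd_pow_self _ two_ne_zero)).mul_left _
  have key2 : ∀ d ∈ [2, 5, 6, 10], (if 2 ∣ d then d else 2 * d) ∈ zeroLevels := by decide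
  refine pell_core hp hp6 hirr (Or.inl rfl) h1 hw (by exact_mod_cast hd0) h64 (key2 d hd) ?_ ?_
  · split_ifs with h3
    · exact h3
    · exact dvd_mul_right 2 d
  · intro q _ _ h3
    have h4 : q ∣ d := by exact_mod_cast h3
    split_ifs
    · exact h4
    · exact h4.mul_left 2

/-! ### Fibonacci numbers -/

/-- Cassini's identity. -/
theorem fib_sq_identity (n : ℕ) :
    (Nat.fib (n + 1) : ℤ) ^ 2 - Nat.fib n * Nat.fib (n + 1) - (Nat.fib n : ℤ) ^ 2 =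
      (-1) ^ n := by
  induction n with
  | zero => simp
  | succ n ih =>
    rw [Nat.fib_add_two, pow_succ (-1 : ℤ) n, ← ih]
    push_cast
    ring

/-- **No even Fibonacci number `F_n` (`n ≥ 1`) is a `p`-th power.** -/
theorem fib_ne_pow (hp : p.Prime) (hp6 : 6 ≤ p) (hirr : SemistableIrred p) {n : ℕ}
    (hn : 0 < n) (he : 2 ∣ Nat.fib n) (y : ℕ) : Nat.fib n ≠ y ^ p := by
  intro h
  have hy2 : 2 ∣ y := by
    rw [h] at he
    exact Nat.prime_two.dvd_of_dvd_pow he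
  obtain ⟨w, rfl⟩ := hy2
  have hw : w ≠ 0 := by
    rintro rfl
    rw [mul_zero, zero_pow hp.ne_zero] at h
    exact (Nat.fib_pos.mpr hn).ne' h
  obtain ⟨m, rfl⟩ : ∃ m, p = m + 1 := ⟨p - 1, by omega⟩
  have hF : (Nat.fib n : ℤ) = 2 * (2 ^ m * (w : ℤ) ^ (m + 1)) := by
    rw [h]
    push_cast
    rw [mul_pow, pow_succ 2 m]
    ring
  have hc := fib_sq_identity n
  rw [hF] at hc
  refine pell_core (d := 5 * (2 ^ m) ^ 2) (w := (w : ℤ))
    (z := (Nat.fib (n + 1) : ℤ) - 2 ^ m * (w : ℤ) ^ (m + 1)) (e := (-1) ^ n) (L := 10) hp hp6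
    hirr (neg_one_pow_eq_or ℤ n) ?_ (by exact_mod_cast hw)
    (mul_ne_zero (by norm_num) (pow_ne_zero _ (pow_ne_zero _ two_ne_zero))) ?_ (by decide)
    (by norm_num) ?_
  · rw [← hc]
    ring
  · have h1 : (64 : ℤ) ∣ (2 ^ m) ^ 2 := by
      rw [← pow_mul]
      have : (2 : ℤ) ^ 6 ∣ 2 ^ (m * 2) := pow_dvd_pow 2 (by omega)
      simpa using this
    exact (h1.mul_left 5).mul_right _
  · intro q hq hq2 h1
    have hq' := Nat.prime_iff_prime_int.mp hq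
    rcases hq'.dvd_or_dvd h1 with h3 | h3
    · have h5 : q ∣ 5 := by exact_mod_cast h3
      exact h5.trans (by norm_num)
    · have h4 := hq'.dvd_of_dvd_pow (hq'.dvd_of_dvd_pow h3)
      have h5 : q ∣ 2 := by exact_mod_cast h4
      exact h5.trans (by norm_num)

/-! ### Polygonal numbers -/

/-- **No even triangular number `≠ 0` is a `p`-th power.** -/
theorem triangular_ne_pow (hp : p.Prime) (hp6 : 6 ≤ p) (hirr : SemistableIrred p) {n w : ℤ}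
    (hw : w ≠ 0) (h2 : (2 : ℤ) ∣ w) : n * (n + 1) ≠ 2 * w ^ p := by
  intro h
  refine pow_add_two_pow_mul_pow_ne_sq hp hp6 hirr (x := 1) (y := w) (k := 3) one_ne_zero hw
    isCoprime_one_left (by norm_num) (Or.inr h2) (2 * n + 1) ?_
  rw [one_pow]
  linear_combination -4 * h

/-- **No even (generalized) pentagonal number `≠ 0` is a `p`-th power.** -/
theorem pentagonal_ne_pow (hp : p.Prime) (hp6 : 6 ≤ p) (hirr : SemistableIrred p) {n w : ℤ}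
    (hw : w ≠ 0) (h2 : (2 : ℤ) ∣ w) : n * (3 * n - 1) ≠ 2 * w ^ p := by
  intro h
  refine pow_add_mul_pow_ne_sq hp hp6 hirr (ℓ := 3) (Or.inl rfl) (x := 1) (y := w) (k := 3)
    (m := 1) one_ne_zero hw isCoprime_one_left (Or.inr h2) (6 * n - 1) ?_
  rw [one_pow]
  push_cast
  linear_combination -12 * h

/-- **No even octagonal number `n (3 n - 2) ≠ 0` is a `p`-th power.** -/
theorem octagonal_ne_pow (hp : p.Prime) (hp6 : 6 ≤ p) (hirr : SemistableIrred p) {n w : ℤ}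
    (hw : w ≠ 0) (h2 : (2 : ℤ) ∣ w) : n * (3 * n - 2) ≠ w ^ p := by
  intro h
  refine pow_add_mul_pow_ne_sq hp hp6 hirr (ℓ := 3) (Or.inl rfl) (x := 1) (y := w) (k := 0)
    (m := 1) one_ne_zero hw isCoprime_one_left (Or.inr h2) (3 * n - 1) ?_
  rw [one_pow]
  push_cast
  linear_combination -3 * h

end Fermat.Agent.Cor
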