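import Fermat.Agent.Corollaries.Disc

/-!
# The equations `A xᵖ + B yᵖ = z²`: the semistable case

(Darmon - Merel for `xᵖ + yᵖ = z²` with `xy` even, Ivorra, Bennett - Skinner for coefficients.)

For `a + b = c²`, `a, b` coprime and non-zero, `64 ∣ b`, `c ≡ 1 mod 4`, the curve
`Y² + XY = X³ + (c - 1)/4 X² + b/64 X` has `Δ = (b/64)² a`, `c₄ = a + b/4` and is semistable.
If `W[p]` is irreducible for all semistable `W` (`SemistableIrred p`: Mazur, `p = 11` or `p ≥ 17`),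
then for every level `L` of genus zero there is a prime `q ∤ L` with `p ∤ v_q(Δ)`
(`exists_prime_two`).
-/

set_option autoImplicit false

namespace Fermat.Agent.Cor

open WeierstrassCurve

/-- `W[p]` is irreducible for every semistable `W`. -/
def SemistableIrred (p : ℕ) : Prop :=
  ∀ W : WeierstrassCurve ℤ, W.Δ ≠ 0 → W.IsSemistableModel → W.ModRepIsIrreducible p

/-! ### Valuations -/

theorem padicValInt_pow_eq (q n : ℕ) [Fact q.Prime] (x : ℤ) : padicValInt q (x ^ n) = n * padicValInt q x := by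
  rw [padicValInt, padicValInt, Int.natAbs_pow, padicValNat.pow]

theorem dvd_padicValInt_mul_pow_of_dvd {p q : ℕ} (hq : q.Prime) {A x : ℤ} (hA : A ≠ 0) (hx : x ≠ 0)
    (h : p ∣ padicValInt q A) : p ∣ padicValInt q (A * x ^ p) := by
  have : Fact q.Prime := ⟨hq⟩
  rw [padicValInt.mul hA (pow_ne_zero _ hx), padicValInt_pow_eq]
  exact dvd_add h (dvd_mul_right _ _)

/-! ### The curve -/

/-- The curve `Y² + XY = X³ + s X² + t X`, with `c = 1 + 4 s`, `b = 64 t`, `a = c² - b`. -/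
def curveTwo (s t : ℤ) : WeierstrassCurve ℤ := ⟨1, s, 0, t, 0⟩

theorem curveTwo_Δ (s t : ℤ) : (curveTwo s t).Δ = t ^ 2 * ((1 + 4 * s) ^ 2 - 64 * t) := by
  simp only [curveTwo, WeierstrassCurve.Δ, WeierstrassCurve.b₂, WeierstrassCurve.b₄,
    WeierstrassCurve.b₆, WeierstrassCurve.b₈]
  ring

theorem curveTwo_c₄ (s t : ℤ) :
    (curveTwo s t).c₄ = ((1 + 4 * s) ^ 2 - 64 * t) + 16 * t := by
  simp only [curveTwo, WeierstrassCurve.c₄, WeierstrassCurve.b₂, WeierstrassCurve.b₄]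
  ring

theorem curveTwo_semistable {s t : ℤ} (h : IsCoprime ((1 + 4 * s) ^ 2 - 64 * t) t) :
    (curveTwo s t).IsSemistableModel := by
  intro q hq hΔ hc
  rw [curveTwo_Δ] at hΔ
  rw [curveTwo_c₄] at hc
  set a := (1 + 4 * s) ^ 2 - 64 * t with ha
  have hq' : Prime (q : ℤ) := Nat.prime_iff_prime_int.mp hq
  have key : ¬ ((q : ℤ) ∣ a ∧ (q : ℤ) ∣ t) := fun hh =>
    hq'.not_isUnit (h.isUnit_of_dvd' hh.1 hh.2)
  rcases hq'.dvd_or_dvd hΔ with h1 | h1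
  · have ht := hq'.dvd_of_dvd_pow h1
    exact key ⟨(dvd_add_left (ht.mul_left 16)).mp hc, ht⟩
  · have h16 : (q : ℤ) ∣ 16 * t := (dvd_add_right h1).mp hc
    rcases hq'.dvd_or_dvd h16 with h2 | h2
    · have h3 : (q : ℤ) ∣ 2 := hq'.dvd_of_dvd_pow (by simpa using h2 : (q : ℤ) ∣ 2 ^ 4)
      have h4 : (2 : ℤ) ∣ a := by
        have h5 : q ∣ 2 := by exact_mod_cast h3
        have h6 := (Nat.prime_dvd_prime_iff_eq hq Nat.prime_two).mp h5
        subst h6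
        exact_mod_cast h1
      rw [ha] at h4
      have h7 : (1 + 4 * s) ^ 2 - 64 * t = 2 * (4 * s + 8 * s ^ 2 - 32 * t) + 1 := by ring
      omega
    · exact key ⟨h1, h2⟩

/-- **The key statement.** `a + b = c²` with `a`, `b` coprime, `b = 64 t`: for every level `L` of
genus zero there is a prime `q ∤ L` with `p ∤ v_q(t² a)`. -/
theorem exists_prime_two {p : ℕ} (hp : p.Prime) (hp2 : p ≠ 2) (hirr : SemistableIrred p)
    {a t c : ℤ} (h : a + 64 * t = c ^ 2) (ha : a ≠ 0) (ht : t ≠ 0) (hat : IsCoprime a t)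
    (hodd : ¬ (2 : ℤ) ∣ a) {L : ℕ} (hL : L ∈ zeroLevels) :
    ∃ q : ℕ, q.Prime ∧ ¬ q ∣ L ∧ ¬ p ∣ padicValInt q (t ^ 2 * a) := by
  -- the sign of `c`
  obtain ⟨s, hs⟩ : ∃ s : ℤ, c ^ 2 = (1 + 4 * s) ^ 2 := by
    have hc : ¬ (2 : ℤ) ∣ c := by
      intro h2
      apply hodd
      have h3 : (2 : ℤ) ∣ c ^ 2 := dvd_pow h2 two_ne_zero
      omega
    rcases (by omega : c % 4 = 1 ∨ c % 4 = 3) with h4 | h4
    · exact ⟨c / 4, by rw [show 1 + 4 * (c / 4) = c by omega]⟩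
    · exact ⟨(-c) / 4, by rw [show 1 + 4 * (-c / 4) = -c by omega, neg_sq]⟩
  have ha' : a = (1 + 4 * s) ^ 2 - 64 * t := by rw [← hs, ← h]; ring
  have hΔ : (curveTwo s t).Δ = t ^ 2 * a := by rw [curveTwo_Δ, ← ha']
  have hΔ0 : (curveTwo s t).Δ ≠ 0 := by
    rw [hΔ]; exact mul_ne_zero (pow_ne_zero _ ht) ha
  have hss : (curveTwo s t).IsSemistableModel := curveTwo_semistable (by rwa [← ha'])
  obtain ⟨q, h1, -, h2, h3⟩ := exists_prime_not_dvd_of_mem hΔ0 hss hp hp2 (hirr _ hΔ0 hss) hL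
  exact ⟨q, h1, h2, by rwa [hΔ] at h3⟩

/-- **No solution of `a + b = c²`** with `a`, `b` coprime, `64 ∣ b`, if `p` divides the valuations
of `a` and `b` at the odd primes not dividing a level `L` of genus zero, and `L` is even or
`v₂(b) ≡ 6 mod p`. -/
theorem no_solution_two {p : ℕ} (hp : p.Prime) (hp2 : p ≠ 2) (hirr : SemistableIrred p)
    {a b c : ℤ} (h : a + b = c ^ 2) (ha : a ≠ 0) (hb : b ≠ 0) (hab : IsCoprime a b)
    (h64 : (64 : ℤ) ∣ b) {L : ℕ} (hL : L ∈ zeroLevels)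
    (hva : ∀ q : ℕ, q.Prime → q ≠ 2 → ¬ q ∣ L → p ∣ padicValInt q a)
    (hvb : ∀ q : ℕ, q.Prime → q ≠ 2 → ¬ q ∣ L → p ∣ padicValInt q b)
    (hv2 : 2 ∣ L ∨ p ∣ padicValInt 2 (b / 64)) : False := by
  obtain ⟨t, rfl⟩ := h64
  have ht : t ≠ 0 := right_ne_zero_of_mul hb
  have hat : IsCoprime a t := hab.of_mul_right_right
  have hodd : ¬ (2 : ℤ) ∣ a := by
    intro h2
    have h3 : (2 : ℤ) ∣ 64 * t := Dvd.dvd.mul_right (by norm_num) t
    exact Int.prime_two.not_isUnit (hab.isUnit_of_dvd' h2 h3)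
  obtain ⟨q, hq, hqL, hv⟩ := exists_prime_two hp hp2 hirr h ha ht hat hodd hL
  apply hv
  have : Fact q.Prime := ⟨hq⟩
  rw [padicValInt.mul (pow_ne_zero _ ht) ha, padicValInt_pow_eq]
  by_cases hq2 : q = 2
  · subst hq2
    have h1 : p ∣ padicValInt 2 t := by
      have := hv2.resolve_left hqL
      rwa [Int.mul_ediv_cancel_left _ (by norm_num)] at this
    rw [padicValInt.eq_zero_of_not_dvd (z := a) (by exact_mod_cast hodd), add_zero]
    exact h1.mul_left 2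
  · have h1 := hvb q hq hq2 hqL
    rw [padicValInt.mul (by norm_num) ht, padicValInt.eq_zero_of_not_dvd (z := 64), zero_add] at h1
    · exact dvd_add (h1.mul_left 2) (hva q hq hq2 hqL)
    · intro h2
      have h3 : (q : ℤ) ∣ 2 := (Nat.prime_iff_prime_int.mp hq).dvd_of_dvd_pow
        (by simpa using h2 : (q : ℤ) ∣ 2 ^ 6)
      have h5 : q ∣ 2 := by exact_mod_cast h3
      exact hq2 ((Nat.prime_dvd_prime_iff_eq hq Nat.prime_two).mp h5)

/-- **The equation `A xᵖ + B yᵖ = z²`**, `A x`, `B y` coprime, `64 ∣ B yᵖ`: no solution with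
`x y ≠ 0` if the primes of `A B` divide an even level `L` of genus zero. -/
theorem two_coeff {p : ℕ} (hp : p.Prime) (hp2 : p ≠ 2) (hirr : SemistableIrred p)
    {A B x y z : ℤ} (h : A * x ^ p + B * y ^ p = z ^ 2) (hcop : IsCoprime (A * x) (B * y))
    (h64 : (64 : ℤ) ∣ B * y ^ p) (hx : A * x ≠ 0) (hy : B * y ≠ 0) {L : ℕ}
    (hL : L ∈ zeroLevels) (hA : ∀ q : ℕ, q.Prime → q ≠ 2 → (q : ℤ) ∣ A → q ∣ L)
    (hB : ∀ q : ℕ, q.Prime → q ≠ 2 → (q : ℤ) ∣ B → q ∣ L)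
    (h2 : 2 ∣ L ∨ p ∣ padicValInt 2 (B * y ^ p / 64)) : False := by
  have hA0 := left_ne_zero_of_mul hx
  have hx0 := right_ne_zero_of_mul hx
  have hB0 := left_ne_zero_of_mul hy
  have hy0 := right_ne_zero_of_mul hy
  have hcop' : IsCoprime (A * x ^ p) (B * y ^ p) := by
    have h1 : IsCoprime ((A * x) ^ p) ((B * y) ^ p) := hcop.pow
    refine (h1.of_isCoprime_of_dvd_left ?_).of_isCoprime_of_dvd_right ?_
    · rw [mul_pow]; exact mul_dvd_mul_right (dvd_pow_self A hp.ne_zero) _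
    · rw [mul_pow]; exact mul_dvd_mul_right (dvd_pow_self B hp.ne_zero) _
  refine no_solution_two hp hp2 hirr h (mul_ne_zero hA0 (pow_ne_zero _ hx0))
    (mul_ne_zero hB0 (pow_ne_zero _ hy0)) hcop' h64 hL ?_ ?_ h2
  · intro q hq hq2 hqL
    refine dvd_padicValInt_mul_pow_of_dvd hq hA0 hx0 ?_
    rw [padicValInt.eq_zero_of_not_dvd fun h => hqL (hA q hq hq2 h)]
    exact dvd_zero p
  · intro q hq hq2 hqL
    refine dvd_padicValInt_mul_pow_of_dvd hq hB0 hy0 ?_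
    rw [padicValInt.eq_zero_of_not_dvd fun h => hqL (hB q hq hq2 h)]
    exact dvd_zero p

/-- `64 ∣ 2ᵏ yᵖ` -/
theorem sixtyfour_dvd {p : ℕ} (hp6 : 6 ≤ p) {y : ℤ} (hy : (2 : ℤ) ∣ y) : (64 : ℤ) ∣ y ^ p := by
  have h1 : (2 : ℤ) ^ 6 ∣ y ^ p := (pow_dvd_pow_of_dvd hy 6).trans (pow_dvd_pow y hp6)
  simpa using h1

/-- **`xᵖ + yᵖ = z²`, `x, y` coprime, `xy` even** (Darmon - Merel): no solution with `xy ≠ 0`. -/
theorem pow_add_pow_ne_sq {p : ℕ} (hp : p.Prime) (hp6 : 6 ≤ p) (hirr : SemistableIrred p)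
    {x y : ℤ} (hx : x ≠ 0) (hy : y ≠ 0) (hxy : IsCoprime x y) (heven : (2 : ℤ) ∣ x * y) (z : ℤ) :
    x ^ p + y ^ p ≠ z ^ 2 := by
  have hp2 : p ≠ 2 := by omega
  have key : ∀ x y : ℤ, x ≠ 0 → y ≠ 0 → IsCoprime x y → (2 : ℤ) ∣ y → x ^ p + y ^ p ≠ z ^ 2 := by
    intro x y hx hy hxy h2 h
    refine two_coeff (A := 1) (B := 1) (L := 2) hp hp2 hirr (z := z) (by simpa using h)
      (by simpa using hxy) (by simpa using sixtyfour_dvd hp6 h2) (by simpa using hx)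
      (by simpa using hy) (by decide) ?_ ?_ (Or.inl dvd_rfl)
    all_goals
      intro q hq _ h1
      have h3 : q ∣ 1 := by exact_mod_cast h1
      exact absurd (Nat.dvd_one.mp h3) hq.ne_one
  rcases Int.prime_two.dvd_or_dvd heven with h2 | h2
  · intro h
    exact key y x hy hx hxy.symm h2 (by rw [add_comm]; exact h)
  · exact key x y hx hy hxy h2

/-- The same for all exponents divisible by `p`. -/
theorem pow_add_pow_ne_sq_of_dvd {p : ℕ} (hp : p.Prime) (hp6 : 6 ≤ p)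
    (hirr : SemistableIrred p) {n : ℕ} (hn : p ∣ n) {x y : ℤ} (hx : x ≠ 0) (hy : y ≠ 0)
    (hxy : IsCoprime x y) (heven : (2 : ℤ) ∣ x * y) (z : ℤ) : x ^ n + y ^ n ≠ z ^ 2 := by
  obtain ⟨m, rfl⟩ := hn
  rcases Nat.eq_zero_or_pos m with rfl | hm
  · rw [mul_zero, pow_zero, pow_zero]
    intro h
    have h1 : z ^ 2 = 2 := by rw [← h]; norm_num
    have h3 : z ≤ 1 := by nlinarith
    have h4 : -1 ≤ z := by nlinarith
    interval_cases z <;> omega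
  · rw [mul_comm, pow_mul, pow_mul]
    refine pow_add_pow_ne_sq hp hp6 hirr (pow_ne_zero _ hx) (pow_ne_zero _ hy) hxy.pow ?_ z
    rw [← mul_pow]
    exact heven.trans (dvd_pow_self _ hm.ne')

/-- **`xᵖ + 2ᵏ yᵖ = z²`**, `x` odd, `x, y` coprime, `k ≥ 6` or `y` even: no solution with
`xy ≠ 0`. -/
theorem pow_add_two_pow_mul_pow_ne_sq {p : ℕ} (hp : p.Prime) (hp6 : 6 ≤ p)
    (hirr : SemistableIrred p) {x y : ℤ} (hx : x ≠ 0) (hy : y ≠ 0) (hxy : IsCoprime x y)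
    (hodd : ¬ (2 : ℤ) ∣ x) {k : ℕ} (hk : 6 ≤ k ∨ (2 : ℤ) ∣ y) (z : ℤ) :
    x ^ p + 2 ^ k * y ^ p ≠ z ^ 2 := by
  intro h
  have h2 : IsCoprime x 2 := ((Int.prime_two.irreducible.coprime_iff_not_dvd).mpr hodd).symm
  refine two_coeff (A := 1) (B := 2 ^ k) (L := 2) hp (by omega) hirr (z := z)
    (by simpa using h) (by rw [one_mul]; exact (h2.pow_right).mul_right hxy) ?_
    (by simpa using hx) (mul_ne_zero (pow_ne_zero _ two_ne_zero) hy) (by decide) ?_ ?_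
    (Or.inl dvd_rfl)
  · rcases hk with hk | hk
    · exact Dvd.dvd.mul_right (by simpa using pow_dvd_pow (2 : ℤ) hk) _
    · exact (sixtyfour_dvd hp6 hk).mul_left _
  · intro q hq _ h1
    have h3 : q ∣ 1 := by exact_mod_cast h1
    exact absurd (Nat.dvd_one.mp h3) hq.ne_one
  · intro q hq hq2 h1
    have h3 : (q : ℤ) ∣ 2 := (Nat.prime_iff_prime_int.mp hq).dvd_of_dvd_pow h1
    exact_mod_cast h3

/-- **`xᵖ + 2ᵏ ℓᵐ yᵖ = z²`**, `ℓ = 3` or `5`, `64 ∣ 2ᵏ yᵖ`. -/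
theorem pow_add_mul_pow_ne_sq {p : ℕ} (hp : p.Prime) (hp6 : 6 ≤ p)
    (hirr : SemistableIrred p) {ℓ : ℕ} (hℓ : ℓ = 3 ∨ ℓ = 5) {x y : ℤ} (hx : x ≠ 0)
    (hy : y ≠ 0) {k m : ℕ} (hxy : IsCoprime x (2 * (ℓ : ℤ) * y))
    (hk : 6 ≤ k ∨ (2 : ℤ) ∣ y) (z : ℤ) :
    x ^ p + 2 ^ k * (ℓ : ℤ) ^ m * y ^ p ≠ z ^ 2 := by
  intro h
  have hℓ0 : (ℓ : ℤ) ≠ 0 := by rcases hℓ with rfl | rfl <;> norm_num
  have hL : 2 * ℓ ∈ zeroLevels := by rcases hℓ with rfl | rfl <;> decide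
  have hc1 : IsCoprime x 2 := hxy.of_mul_right_left.of_mul_right_left
  have hc2 : IsCoprime x (ℓ : ℤ) := hxy.of_mul_right_left.of_mul_right_right
  refine two_coeff (A := 1) (B := 2 ^ k * (ℓ : ℤ) ^ m) (L := 2 * ℓ) hp (by omega) hirr (z := z)
    (by simpa using h)
    (by rw [one_mul]; exact ((hc1.pow_right).mul_right hc2.pow_right).mul_right
          hxy.of_mul_right_right) ?_
    (by simpa using hx)
    (mul_ne_zero (mul_ne_zero (pow_ne_zero _ two_ne_zero) (pow_ne_zero _ hℓ0)) hy) hL ?_ ?_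
    (Or.inl (dvd_mul_right 2 ℓ))
  · rcases hk with hk | hk
    · exact Dvd.dvd.mul_right (Dvd.dvd.mul_right (by simpa using pow_dvd_pow (2 : ℤ) hk) _) _
    · exact (sixtyfour_dvd hp6 hk).mul_left _
  · intro q hq _ h1
    have h3 : q ∣ 1 := by exact_mod_cast h1
    exact absurd (Nat.dvd_one.mp h3) hq.ne_one
  · intro q hq hq2 h1
    have hq' := Nat.prime_iff_prime_int.mp hq
    rcases hq'.dvd_or_dvd h1 with h3 | h3
    · have h4 := hq'.dvd_of_dvd_pow h3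
      exact Dvd.dvd.mul_right (by exact_mod_cast h4) ℓ
    · have h4 := hq'.dvd_of_dvd_pow h3
      exact Dvd.dvd.mul_left (by exact_mod_cast h4) 2

/-- **`xᵖ + 64 ℓᵐ yᵖ = z²`**, `ℓ ∈ {3, 5, 7, 13}`: no solution with `x y ≠ 0`, `x` prime to
`2 ℓ y`.  (For `ℓ = 17` there is `1 + 64 · 17 = 33²`, for the composite `15` in place of `ℓ`
`1 + 64 · 15 = 31²`.) -/
theorem pow_add_sixtyfour_mul_pow_ne_sq {p : ℕ} (hp : p.Prime) (hp6 : 6 ≤ p)
    (hirr : SemistableIrred p) {ℓ : ℕ} (hℓ : ℓ ∈ [3, 5, 7, 13]) {x y : ℤ} (hx : x ≠ 0)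
    (hy : y ≠ 0) {m : ℕ} (hxy : IsCoprime x (2 * (ℓ : ℤ) * y)) (z : ℤ) :
    x ^ p + 64 * (ℓ : ℤ) ^ m * y ^ p ≠ z ^ 2 := by
  intro h
  have key : ∀ ℓ ∈ [3, 5, 7, 13], ℓ ∈ zeroLevels ∧ ¬ 2 ∣ ℓ ∧ ℓ ≠ 0 := by decide
  obtain ⟨hL, hℓ2, hℓ0'⟩ := key ℓ hℓ
  have hℓ0 : (ℓ : ℤ) ≠ 0 := by exact_mod_cast hℓ0'
  have hc1 : IsCoprime x 2 := hxy.of_mul_right_left.of_mul_right_left
  have hc2 : IsCoprime x (ℓ : ℤ) := hxy.of_mul_right_left.of_mul_right_right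
  have hc3 : IsCoprime x 64 := by
    have := hc1.pow_right (n := 6)
    norm_num at this
    exact this
  refine two_coeff (A := 1) (B := 64 * (ℓ : ℤ) ^ m) (L := ℓ) hp (by omega) hirr (z := z)
    (by simpa using h)
    (by rw [one_mul]; exact (hc3.mul_right hc2.pow_right).mul_right hxy.of_mul_right_right)
    (Dvd.dvd.mul_right (dvd_mul_right _ _) _) (by simpa using hx)
    (mul_ne_zero (mul_ne_zero (by norm_num) (pow_ne_zero _ hℓ0)) hy) hL ?_ ?_ (Or.inr ?_)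
  · intro q hq _ h1
    have h3 : q ∣ 1 := by exact_mod_cast h1
    exact absurd (Nat.dvd_one.mp h3) hq.ne_one
  · intro q hq hq2 h1
    have hq' := Nat.prime_iff_prime_int.mp hq
    rcases hq'.dvd_or_dvd h1 with h3 | h3
    · exfalso
      have h4 : (q : ℤ) ∣ 2 := hq'.dvd_of_dvd_pow (by simpa using h3 : (q : ℤ) ∣ 2 ^ 6)
      have h5 : q ∣ 2 := by exact_mod_cast h4
      exact hq2 ((Nat.prime_dvd_prime_iff_eq hq Nat.prime_two).mp h5)
    · have h4 := hq'.dvd_of_dvd_pow h3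
      exact_mod_cast h4
  · have : Fact (Nat.Prime 2) := ⟨Nat.prime_two⟩
    rw [mul_assoc, Int.mul_ediv_cancel_left _ (by norm_num)]
    refine dvd_padicValInt_mul_pow_of_dvd Nat.prime_two (pow_ne_zero _ hℓ0) hy ?_
    rw [padicValInt_pow_eq, padicValInt.eq_zero_of_not_dvd (by exact_mod_cast hℓ2), mul_zero]
    exact dvd_zero p

end Fermat.Agent.Cor
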