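import Fermat.Agent.Corollaries.PP.Two

/-!
# The equation `x³ - y² = 1728 D`: signature `(2, 3, p)`, semistable case

If `x³ - y² = 1728 D` with `x, y` coprime and `D ≠ 0`, there is a semistable integral Weierstrass
model `W` with `c₄ = x`, `c₆² = y²`, `Δ = D` (`exists_semistable`): choose `u ≡ -c₆/x mod 1728`,
`u ≡ 1 mod 4`; then `Y² + XY = X³ + (u - 1)/4 X² + (u² - x)/48 X + (u³ - 3ux - 2c₆)/1728`.

Hence (`exists_prime_six`) for every level `L` of genus zero there is a prime `q ∤ L` with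
`p ∤ v_q(D)`, if `W[p]` is irreducible for all semistable `W`; so `x³ - y² = 1728 A zᵖ` has no
coprime solution for `A` supported on the primes of `L`, and `x³ + y² = zᵖ` has no coprime solution
with `6 ∣ z ≠ 0`.
-/

set_option autoImplicit false

namespace Fermat.Agent.Cor

open WeierstrassCurve

/-- The curve `Y² + XY = X³ + a₂ X² + a₄ X + a₆`. -/
theorem c₄_of_one (a₂ a₄ a₆ : ℤ) :
    (⟨1, a₂, 0, a₄, a₆⟩ : WeierstrassCurve ℤ).c₄ = (1 + 4 * a₂) ^ 2 - 48 * a₄ := by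
  simp only [WeierstrassCurve.c₄, WeierstrassCurve.b₂, WeierstrassCurve.b₄]
  ring

theorem c₆_of_one (a₂ a₄ a₆ : ℤ) :
    (⟨1, a₂, 0, a₄, a₆⟩ : WeierstrassCurve ℤ).c₆ =
      -(1 + 4 * a₂) ^ 3 + 72 * (1 + 4 * a₂) * a₄ - 864 * a₆ := by
  simp only [WeierstrassCurve.c₆, WeierstrassCurve.b₂, WeierstrassCurve.b₄,
    WeierstrassCurve.b₆]
  ring

/-- **Coprime solutions of `x³ - y² = 1728 D` come from semistable curves.** -/
theorem exists_semistable {x y D : ℤ} (h : x ^ 3 - y ^ 2 = 1728 * D) (hxy : IsCoprime x y) :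
    ∃ W : WeierstrassCurve ℤ, W.c₄ = x ∧ (W.c₆ = y ∨ W.c₆ = -y) ∧ W.Δ = D ∧
      W.IsSemistableModel := by
  -- `x` is prime to `6`
  have h2 : ¬ (2 : ℤ) ∣ x := by
    intro hx
    have h1 : (2 : ℤ) ∣ y ^ 2 := by
      have h3 : y ^ 2 = x ^ 3 - 1728 * D := by linarith
      rw [h3]
      exact dvd_sub (dvd_pow hx three_ne_zero) (Dvd.dvd.mul_right (by norm_num) D)
    exact Int.prime_two.not_isUnit (hxy.isUnit_of_dvd' hx (Int.prime_two.dvd_of_dvd_pow h1))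
  have h3 : ¬ (3 : ℤ) ∣ x := by
    intro hx
    have h1 : (3 : ℤ) ∣ y ^ 2 := by
      have h3 : y ^ 2 = x ^ 3 - 1728 * D := by linarith
      rw [h3]
      exact dvd_sub (dvd_pow hx three_ne_zero) (Dvd.dvd.mul_right (by norm_num) D)
    exact Int.prime_three.not_isUnit (hxy.isUnit_of_dvd' hx (Int.prime_three.dvd_of_dvd_pow h1))
  have hc2 : IsCoprime (2 : ℤ) x := (Int.prime_two.irreducible.coprime_iff_not_dvd).mpr h2
  have hc3 : IsCoprime (3 : ℤ) x := (Int.prime_three.irreducible.coprime_iff_not_dvd).mpr h3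
  have hc : IsCoprime x 1728 := by
    have h4 : IsCoprime (2 ^ 6 * 3 ^ 3) x := (hc2.pow_left).mul_left hc3.pow_left
    norm_num at h4
    exact h4.symm
  obtain ⟨i, j, hij⟩ := hc
  -- the sign of `y`
  have hyodd : ¬ (2 : ℤ) ∣ y := by
    intro hy
    have h1 : (2 : ℤ) ∣ x ^ 3 := by
      have h5 : x ^ 3 = y ^ 2 + 1728 * D := by linarith
      rw [h5]
      exact dvd_add (dvd_pow hy two_ne_zero) (Dvd.dvd.mul_right (by norm_num) D)
    exact h2 (Int.prime_two.dvd_of_dvd_pow h1)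
  have hiodd : ¬ (2 : ℤ) ∣ i := by
    intro hi
    have h1 : (2 : ℤ) ∣ i * x + j * 1728 :=
      dvd_add (hi.mul_right x) (Dvd.dvd.mul_left (by norm_num) j)
    rw [hij] at h1
    omega
  obtain ⟨c, hc1, hc2', hcmod⟩ : ∃ c : ℤ, (c = y ∨ c = -y) ∧ c ^ 2 = y ^ 2 ∧
      (-(c * i)) % 4 = 1 := by
    have hyi : ¬ (2 : ℤ) ∣ y * i := fun hd =>
      (Int.prime_two.dvd_or_dvd hd).elim hyodd hiodd
    rcases (by omega : (y * i) % 4 = 1 ∨ (y * i) % 4 = 3) with h4 | h4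
    · refine ⟨-y, Or.inr rfl, by ring, ?_⟩
      rw [show -(-y * i) = y * i by ring]
      exact h4
    · exact ⟨y, Or.inl rfl, rfl, by omega⟩
  set u : ℤ := -(c * i) with hu
  -- `u x ≡ -c mod 1728`
  have hux : (1728 : ℤ) ∣ u * x + c := ⟨c * j, by rw [hu]; linear_combination -c * hij⟩
  have hu2 : (1728 : ℤ) ∣ u ^ 2 - x := by
    -- `x² (u² - x) ≡ c² - x³ ≡ 0`
    have h5 : (1728 : ℤ) ∣ x ^ 2 * (u ^ 2 - x) := by
      have h6 : x ^ 2 * (u ^ 2 - x) = (u * x + c) * (u * x - c) + (c ^ 2 - x ^ 3) := by ring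
      rw [h6, hc2']
      exact dvd_add (hux.mul_right _) ⟨-D, by linear_combination -h⟩
    have h7 : IsCoprime (1728 : ℤ) (x ^ 2) := by
      have : IsCoprime (1728 : ℤ) x := ⟨j, i, by linear_combination hij⟩
      exact this.pow_right
    exact h7.dvd_of_dvd_mul_left h5
  obtain ⟨k, hk⟩ := hu2
  obtain ⟨l, hl⟩ := hux
  obtain ⟨s, hs⟩ : ∃ s : ℤ, u = 1 + 4 * s := ⟨u / 4, by omega⟩
  -- the curve
  set W : WeierstrassCurve ℤ := ⟨1, s, 0, 36 * k, u * k - 2 * l⟩ with hW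
  have hW4 : W.c₄ = x := by
    rw [hW, c₄_of_one, ← hs]
    linear_combination hk
  have hW6 : W.c₆ = c := by
    rw [hW, c₆_of_one, ← hs]
    linear_combination -u * hk - hl
  have hWΔ : W.Δ = D := by
    have h8 := W.c_relation
    rw [hW4, hW6, hc2', h] at h8
    exact mul_left_cancel₀ (by norm_num) h8
  refine ⟨W, hW4, ?_, hWΔ, ?_⟩
  · rw [hW6]
    exact hc1
  · intro q hq h8 h9
    rw [hWΔ] at h8
    rw [hW4] at h9
    have hq' : Prime (q : ℤ) := Nat.prime_iff_prime_int.mp hq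
    have h10 : (q : ℤ) ∣ y ^ 2 := by
      have h11 : y ^ 2 = x ^ 3 - 1728 * D := by linarith
      rw [h11]
      exact dvd_sub (dvd_pow h9 three_ne_zero) (h8.mul_left _)
    exact hq'.not_isUnit (hxy.isUnit_of_dvd' h9 (hq'.dvd_of_dvd_pow h10))

/-- **The key statement.** `x³ - y² = 1728 D`, `x, y` coprime, `D ≠ 0`: for every level `L` of
genus zero there is a prime `q ∤ L` with `p ∤ v_q(D)`. -/
theorem exists_prime_six {p : ℕ} (hp : p.Prime) (hp2 : p ≠ 2) (hirr : SemistableIrred p)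
    {x y D : ℤ} (h : x ^ 3 - y ^ 2 = 1728 * D) (hxy : IsCoprime x y) (hD : D ≠ 0) {L : ℕ}
    (hL : L ∈ zeroLevels) : ∃ q : ℕ, q.Prime ∧ ¬ q ∣ L ∧ ¬ p ∣ padicValInt q D := by
  obtain ⟨W, -, -, hΔ, hss⟩ := exists_semistable h hxy
  have hΔ0 : W.Δ ≠ 0 := by rw [hΔ]; exact hD
  obtain ⟨q, h1, -, h2, h3⟩ := exists_prime_not_dvd_of_mem hΔ0 hss hp hp2 (hirr _ hΔ0 hss) hL
  exact ⟨q, h1, h2, by rwa [hΔ] at h3⟩

/-- **`x³ - y² = 1728 A zᵖ`**, `x, y` coprime, the primes of `A` dividing a level `L` of genus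
zero: no solution with `A z ≠ 0`. -/
theorem six_coeff {p : ℕ} (hp : p.Prime) (hp2 : p ≠ 2) (hirr : SemistableIrred p)
    {A x y z : ℤ} (h : x ^ 3 - y ^ 2 = 1728 * (A * z ^ p)) (hxy : IsCoprime x y) (hA0 : A ≠ 0)
    (hz : z ≠ 0) {L : ℕ} (hL : L ∈ zeroLevels)
    (hA : ∀ q : ℕ, q.Prime → (q : ℤ) ∣ A → q ∣ L) : False := by
  obtain ⟨q, hq, hqL, hv⟩ := exists_prime_six hp hp2 hirr h hxy
    (mul_ne_zero hA0 (pow_ne_zero _ hz)) hL
  refine hv (dvd_padicValInt_mul_pow_of_dvd hq hA0 hz ?_)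
  rw [padicValInt.eq_zero_of_not_dvd fun h => hqL (hA q hq h)]
  exact dvd_zero p

/-- **`x³ - y² = 1728 zᵖ`** has no solution with `x, y` coprime and `z ≠ 0`. -/
theorem cube_sub_sq_ne_mul_pow {p : ℕ} (hp : p.Prime) (hp2 : p ≠ 2) (hirr : SemistableIrred p)
    {x y z : ℤ} (hxy : IsCoprime x y) (hz : z ≠ 0) : x ^ 3 - y ^ 2 ≠ 1728 * z ^ p := by
  intro h
  refine six_coeff (A := 1) (L := 1) hp hp2 hirr (by rw [one_mul]; exact h) hxy one_ne_zero hz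
    (by decide) ?_
  intro q hq h1
  exact_mod_cast h1

/-- **`x³ - y² = zᵖ`** (`z` of any sign) has no solution with `x, y` coprime and `6 ∣ z ≠ 0`. -/
theorem cube_sub_sq_ne_pow {p : ℕ} (hp : p.Prime) (hp6 : 6 ≤ p) (hirr : SemistableIrred p)
    {x y z : ℤ} (hxy : IsCoprime x y) (hz : z ≠ 0) (h6 : (6 : ℤ) ∣ z) :
    x ^ 3 - y ^ 2 ≠ z ^ p := by
  intro h
  obtain ⟨w, rfl⟩ := h6
  have hw : w ≠ 0 := right_ne_zero_of_mul hz
  obtain ⟨m, rfl⟩ : ∃ m, p = m + 6 := ⟨p - 6, by omega⟩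
  refine six_coeff (A := 2 ^ m * 3 ^ (m + 3)) (L := 6) hp (by omega) hirr (x := x) (y := y)
    (z := w) ?_ hxy (mul_ne_zero (pow_ne_zero _ two_ne_zero) (pow_ne_zero _ three_ne_zero)) hw
    (by decide) ?_
  · rw [h, mul_pow, show (6 : ℤ) = 2 * 3 by norm_num, mul_pow 2 3 (m + 6), pow_add 2 m 6,
      pow_add 3 m 6, pow_add 3 m 3]
    ring
  · intro q hq h1
    have hq' := Nat.prime_iff_prime_int.mp hq
    rcases hq'.dvd_or_dvd h1 with h3 | h3
    · have h4 := hq'.dvd_of_dvd_pow h3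
      have h5 : q ∣ 2 := by exact_mod_cast h4
      exact h5.trans (by norm_num)
    · have h4 := hq'.dvd_of_dvd_pow h3
      have h5 : q ∣ 3 := by exact_mod_cast h4
      exact h5.trans (by norm_num)

/-- **`x³ + y² = zᵖ`** has no solution with `x, y` coprime and `6 ∣ z ≠ 0`. -/
theorem cube_add_sq_ne_pow {p : ℕ} (hp : p.Prime) (hp6 : 6 ≤ p) (hirr : SemistableIrred p)
    {x y z : ℤ} (hxy : IsCoprime x y) (hz : z ≠ 0) (h6 : (6 : ℤ) ∣ z) :
    x ^ 3 + y ^ 2 ≠ z ^ p := by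
  intro h
  have hodd : Odd p := hp.odd_of_ne_two (by omega)
  refine cube_sub_sq_ne_pow hp hp6 hirr (x := -x) (y := y) (z := -z) hxy.neg_left
    (neg_ne_zero.mpr hz) ((dvd_neg).mpr h6) ?_
  rw [hodd.neg_pow, ← h]
  ring

/-- The same for all exponents divisible by `p`: the generalized Fermat equation of signature
`(2, 3, n)`, `x³ ± y² = zⁿ`, has no solution with `x, y` coprime and `6 ∣ z ≠ 0`. -/
theorem cube_add_sq_ne_pow_of_dvd {p : ℕ} (hp : p.Prime) (hp6 : 6 ≤ p)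
    (hirr : SemistableIrred p) {n : ℕ} (hn : p ∣ n) (hn0 : n ≠ 0) {x y z : ℤ}
    (hxy : IsCoprime x y) (hz : z ≠ 0) (h6 : (6 : ℤ) ∣ z) :
    x ^ 3 + y ^ 2 ≠ z ^ n ∧ x ^ 3 - y ^ 2 ≠ z ^ n := by
  obtain ⟨m, rfl⟩ := hn
  have hm : m ≠ 0 := right_ne_zero_of_mul hn0
  rw [mul_comm, pow_mul]
  exact ⟨cube_add_sq_ne_pow hp hp6 hirr hxy (pow_ne_zero _ hz) (dvd_pow h6 hm),
    cube_sub_sq_ne_pow hp hp6 hirr hxy (pow_ne_zero _ hz) (dvd_pow h6 hm)⟩

end Fermat.Agent.Cor
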