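import Fermat.Agent.Corollaries.PP.Two

/-!
# The equations `A xᵖ + B yᵖ = z³`: the semistable case

(Darmon - Merel for `xᵖ + yᵖ = z³` with `3 ∣ xy`, Bennett - Vatsal - Yazdani for coefficients.)

For `a + b = c³`, `a, b` coprime and non-zero, `27 ∣ b`, the curve `Y² + c XY + b/27 Y = X³` has
`Δ = (b/27)³ a`, `c₄ = c (a + b/9)` and is semistable.
-/

set_option autoImplicit false

namespace Fermat.Agent.Cor

open WeierstrassCurve

/-- The curve `Y² + c XY + t Y = X³`, with `b = 27 t`, `a = c³ - b`. -/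
def curveThree (c t : ℤ) : WeierstrassCurve ℤ := ⟨c, 0, t, 0, 0⟩

theorem curveThree_Δ (c t : ℤ) : (curveThree c t).Δ = t ^ 3 * (c ^ 3 - 27 * t) := by
  simp only [curveThree, WeierstrassCurve.Δ, WeierstrassCurve.b₂, WeierstrassCurve.b₄,
    WeierstrassCurve.b₆, WeierstrassCurve.b₈]
  ring

theorem curveThree_c₄ (c t : ℤ) : (curveThree c t).c₄ = c * ((c ^ 3 - 27 * t) + 3 * t) := by
  simp only [curveThree, WeierstrassCurve.c₄, WeierstrassCurve.b₂, WeierstrassCurve.b₄]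
  ring

theorem curveThree_semistable {c t : ℤ} (h : IsCoprime (c ^ 3 - 27 * t) (27 * t)) :
    (curveThree c t).IsSemistableModel := by
  intro q hq hΔ hc
  rw [curveThree_Δ] at hΔ
  rw [curveThree_c₄] at hc
  have hq' : Prime (q : ℤ) := Nat.prime_iff_prime_int.mp hq
  have key : ¬ ((q : ℤ) ∣ c ^ 3 - 27 * t ∧ (q : ℤ) ∣ 27 * t) := fun hh =>
    hq'.not_isUnit (h.isUnit_of_dvd' hh.1 hh.2)
  rcases hq'.dvd_or_dvd hΔ with h1 | h1
  · -- `q ∣ t`
    have ht := hq'.dvd_of_dvd_pow h1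
    have h27 : (q : ℤ) ∣ 27 * t := ht.mul_left 27
    rcases hq'.dvd_or_dvd hc with h2 | h2
    · exact key ⟨(dvd_sub_right (dvd_pow h2 three_ne_zero)).mpr h27, h27⟩
    · exact key ⟨(dvd_add_left (ht.mul_left 3)).mp h2, h27⟩
  · -- `q ∣ a`
    rcases hq'.dvd_or_dvd hc with h2 | h2
    · exact key ⟨h1, (dvd_sub_right (dvd_pow h2 three_ne_zero)).mp h1⟩
    · have h3 : (q : ℤ) ∣ 3 * t := (dvd_add_right h1).mp h2
      have h4 : (q : ℤ) ∣ 27 * t := by
        have : (27 : ℤ) * t = 9 * (3 * t) := by ring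
        rw [this]; exact h3.mul_left 9
      exact key ⟨h1, h4⟩

/-- **The key statement.** `a + b = c³` with `a`, `b = 27 t` coprime: for every level `L` of genus
zero there is a prime `q ∤ L` with `p ∤ v_q(t³ a)`. -/
theorem exists_prime_three {p : ℕ} (hp : p.Prime) (hp2 : p ≠ 2) (hirr : SemistableIrred p)
    {a t c : ℤ} (h : a + 27 * t = c ^ 3) (ha : a ≠ 0) (ht : t ≠ 0)
    (hat : IsCoprime a (27 * t)) {L : ℕ} (hL : L ∈ zeroLevels) :
    ∃ q : ℕ, q.Prime ∧ ¬ q ∣ L ∧ ¬ p ∣ padicValInt q (t ^ 3 * a) := by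
  have ha' : a = c ^ 3 - 27 * t := by rw [← h]; ring
  have hΔ : (curveThree c t).Δ = t ^ 3 * a := by rw [curveThree_Δ, ← ha']
  have hΔ0 : (curveThree c t).Δ ≠ 0 := by
    rw [hΔ]; exact mul_ne_zero (pow_ne_zero _ ht) ha
  have hss : (curveThree c t).IsSemistableModel := curveThree_semistable (by rwa [← ha'])
  obtain ⟨q, h1, -, h2, h3⟩ := exists_prime_not_dvd_of_mem hΔ0 hss hp hp2 (hirr _ hΔ0 hss) hL
  exact ⟨q, h1, h2, by rwa [hΔ] at h3⟩

/-- **No solution of `a + b = c³`** with `a`, `b` coprime, `27 ∣ b`, if `p` divides the valuations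
of `a` and `b` at the primes `q ≠ 3` not dividing a level `L` of genus zero, and `3 ∣ L` or
`v₃(b) ≡ 3 mod p`. -/
theorem no_solution_three {p : ℕ} (hp : p.Prime) (hp2 : p ≠ 2) (hirr : SemistableIrred p)
    {a b c : ℤ} (h : a + b = c ^ 3) (ha : a ≠ 0) (hb : b ≠ 0) (hab : IsCoprime a b)
    (h27 : (27 : ℤ) ∣ b) {L : ℕ} (hL : L ∈ zeroLevels)
    (hva : ∀ q : ℕ, q.Prime → q ≠ 3 → ¬ q ∣ L → p ∣ padicValInt q a)
    (hvb : ∀ q : ℕ, q.Prime → q ≠ 3 → ¬ q ∣ L → p ∣ padicValInt q b)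
    (hv3 : 3 ∣ L ∨ p ∣ padicValInt 3 (b / 27)) : False := by
  obtain ⟨t, rfl⟩ := h27
  have ht : t ≠ 0 := right_ne_zero_of_mul hb
  have h3a : ¬ (3 : ℤ) ∣ a := by
    intro h2
    have h3 : (3 : ℤ) ∣ 27 * t := Dvd.dvd.mul_right (by norm_num) t
    exact Int.prime_three.not_isUnit (hab.isUnit_of_dvd' h2 h3)
  obtain ⟨q, hq, hqL, hv⟩ := exists_prime_three hp hp2 hirr h ha ht hab hL
  apply hv
  have : Fact q.Prime := ⟨hq⟩
  rw [padicValInt.mul (pow_ne_zero _ ht) ha, padicValInt_pow_eq]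
  by_cases hq3 : q = 3
  · subst hq3
    have h1 : p ∣ padicValInt 3 t := by
      have := hv3.resolve_left hqL
      rwa [Int.mul_ediv_cancel_left _ (by norm_num)] at this
    rw [padicValInt.eq_zero_of_not_dvd (z := a) (by exact_mod_cast h3a), add_zero]
    exact h1.mul_left 3
  · have h1 := hvb q hq hq3 hqL
    rw [padicValInt.mul (by norm_num) ht, padicValInt.eq_zero_of_not_dvd (z := 27), zero_add] at h1
    · exact dvd_add (h1.mul_left 3) (hva q hq hq3 hqL)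
    · intro h2
      have h3 : (q : ℤ) ∣ 3 := (Nat.prime_iff_prime_int.mp hq).dvd_of_dvd_pow
        (by simpa using h2 : (q : ℤ) ∣ 3 ^ 3)
      have h5 : q ∣ 3 := by exact_mod_cast h3
      exact hq3 ((Nat.prime_dvd_prime_iff_eq hq Nat.prime_three).mp h5)

/-- **The equation `A xᵖ + B yᵖ = z³`**, `A x`, `B y` coprime, `27 ∣ B yᵖ`: no solution with
`x y ≠ 0` if the primes `≠ 3` of `A B` divide a level `L` of genus zero, and `3 ∣ L` or
`v₃(B yᵖ) ≡ 3 mod p`. -/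
theorem three_coeff {p : ℕ} (hp : p.Prime) (hp2 : p ≠ 2) (hirr : SemistableIrred p)
    {A B x y z : ℤ} (h : A * x ^ p + B * y ^ p = z ^ 3) (hcop : IsCoprime (A * x) (B * y))
    (h27 : (27 : ℤ) ∣ B * y ^ p) (hx : A * x ≠ 0) (hy : B * y ≠ 0) {L : ℕ}
    (hL : L ∈ zeroLevels) (hA : ∀ q : ℕ, q.Prime → q ≠ 3 → (q : ℤ) ∣ A → q ∣ L)
    (hB : ∀ q : ℕ, q.Prime → q ≠ 3 → (q : ℤ) ∣ B → q ∣ L)
    (h3 : 3 ∣ L ∨ p ∣ padicValInt 3 (B * y ^ p / 27)) : False := by
  have hA0 := left_ne_zero_of_mul hx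
  have hx0 := right_ne_zero_of_mul hx
  have hB0 := left_ne_zero_of_mul hy
  have hy0 := right_ne_zero_of_mul hy
  have hcop' : IsCoprime (A * x ^ p) (B * y ^ p) := by
    have h1 : IsCoprime ((A * x) ^ p) ((B * y) ^ p) := hcop.pow
    refine (h1.of_isCoprime_of_dvd_left ?_).of_isCoprime_of_dvd_right ?_
    · rw [mul_pow]; exact mul_dvd_mul_right (dvd_pow_self A hp.ne_zero) _
    · rw [mul_pow]; exact mul_dvd_mul_right (dvd_pow_self B hp.ne_zero) _
  refine no_solution_three hp hp2 hirr h (mul_ne_zero hA0 (pow_ne_zero _ hx0))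
    (mul_ne_zero hB0 (pow_ne_zero _ hy0)) hcop' h27 hL ?_ ?_ h3
  · intro q hq hq2 hqL
    refine dvd_padicValInt_mul_pow_of_dvd hq hA0 hx0 ?_
    rw [padicValInt.eq_zero_of_not_dvd fun h => hqL (hA q hq hq2 h)]
    exact dvd_zero p
  · intro q hq hq2 hqL
    refine dvd_padicValInt_mul_pow_of_dvd hq hB0 hy0 ?_
    rw [padicValInt.eq_zero_of_not_dvd fun h => hqL (hB q hq hq2 h)]
    exact dvd_zero p

theorem twentyseven_dvd {p : ℕ} (hp3 : 3 ≤ p) {y : ℤ} (hy : (3 : ℤ) ∣ y) :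
    (27 : ℤ) ∣ y ^ p := by
  have h1 : (3 : ℤ) ^ 3 ∣ y ^ p := (pow_dvd_pow_of_dvd hy 3).trans (pow_dvd_pow y hp3)
  simpa using h1

/-- **`xᵖ + yᵖ = z³`, `x, y` coprime, `3 ∣ xy`** (Darmon - Merel): no solution with `xy ≠ 0`. -/
theorem pow_add_pow_ne_cube {p : ℕ} (hp : p.Prime) (hp3 : 3 ≤ p) (hirr : SemistableIrred p)
    {x y : ℤ} (hx : x ≠ 0) (hy : y ≠ 0) (hxy : IsCoprime x y) (hthree : (3 : ℤ) ∣ x * y)
    (z : ℤ) : x ^ p + y ^ p ≠ z ^ 3 := by
  have hp2 : p ≠ 2 := by omega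
  have key : ∀ x y : ℤ, x ≠ 0 → y ≠ 0 → IsCoprime x y → (3 : ℤ) ∣ y → x ^ p + y ^ p ≠ z ^ 3 := by
    intro x y hx hy hxy h3 h
    refine three_coeff (A := 1) (B := 1) (L := 3) hp hp2 hirr (z := z) (by simpa using h)
      (by simpa using hxy) (by simpa using twentyseven_dvd hp3 h3) (by simpa using hx)
      (by simpa using hy) (by decide) ?_ ?_ (Or.inl dvd_rfl)
    all_goals
      intro q hq _ h1
      have h3 : q ∣ 1 := by exact_mod_cast h1
      exact absurd (Nat.dvd_one.mp h3) hq.ne_one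
  rcases Int.prime_three.dvd_or_dvd hthree with h2 | h2
  · intro h
    exact key y x hy hx hxy.symm h2 (by rw [add_comm]; exact h)
  · exact key x y hx hy hxy h2

/-- The same for all exponents `n ≥ 1` divisible by `p`. -/
theorem pow_add_pow_ne_cube_of_dvd {p : ℕ} (hp : p.Prime) (hp3 : 3 ≤ p)
    (hirr : SemistableIrred p) {n : ℕ} (hn : p ∣ n) {x y : ℤ} (hx : x ≠ 0) (hy : y ≠ 0)
    (hxy : IsCoprime x y) (hthree : (3 : ℤ) ∣ x * y) (z : ℤ) : x ^ n + y ^ n ≠ z ^ 3 := by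
  obtain ⟨m, rfl⟩ := hn
  rcases Nat.eq_zero_or_pos m with rfl | hm
  · rw [mul_zero, pow_zero, pow_zero]
    intro h
    have h1 : z ^ 3 = 2 := by rw [← h]; norm_num
    have h3 : z ≤ 1 := by
      by_contra hcon
      have : 2 ≤ z := by omega
      have : (2 : ℤ) ^ 3 ≤ z ^ 3 := pow_le_pow_left₀ (by norm_num) this 3
      omega
    have h4 : 0 < z := by
      by_contra hcon
      have h5 : z ^ 3 ≤ 0 := by
        have : z ^ 3 = z * z ^ 2 := by ring
        rw [this]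
        exact mul_nonpos_of_nonpos_of_nonneg (by omega) (sq_nonneg z)
      omega
    interval_cases z
    omega
  · rw [mul_comm, pow_mul, pow_mul]
    refine pow_add_pow_ne_cube hp hp3 hirr (pow_ne_zero _ hx) (pow_ne_zero _ hy) hxy.pow ?_ z
    rw [← mul_pow]
    exact hthree.trans (dvd_pow_self _ hm.ne')

/-- **`xᵖ + 2ᵐ 3ᵏ yᵖ = z³`**, `x` prime to `6 y`, `k ≥ 3` or `3 ∣ y`: no solution with
`xy ≠ 0`. -/
theorem pow_add_mul_pow_ne_cube {p : ℕ} (hp : p.Prime) (hp3 : 3 ≤ p)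
    (hirr : SemistableIrred p) {x y : ℤ} (hx : x ≠ 0) (hy : y ≠ 0) {k m : ℕ}
    (hxy : IsCoprime x (6 * y)) (hk : 3 ≤ k ∨ (3 : ℤ) ∣ y) (z : ℤ) :
    x ^ p + 2 ^ m * 3 ^ k * y ^ p ≠ z ^ 3 := by
  intro h
  have hc6 : IsCoprime x 6 := hxy.of_mul_right_left
  have hc6' : IsCoprime x (2 * 3) := by norm_num; exact hc6
  have hc1 : IsCoprime x 2 := hc6'.of_mul_right_left
  have hc2 : IsCoprime x 3 := hc6'.of_mul_right_right
  refine three_coeff (A := 1) (B := 2 ^ m * 3 ^ k) (L := 6) hp (by omega) hirr (z := z)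
    (by simpa using h)
    (by rw [one_mul]; exact ((hc1.pow_right).mul_right hc2.pow_right).mul_right
          hxy.of_mul_right_right) ?_
    (by simpa using hx)
    (mul_ne_zero (mul_ne_zero (pow_ne_zero _ two_ne_zero) (pow_ne_zero _ three_ne_zero)) hy)
    (by decide) ?_ ?_ (Or.inl (by norm_num))
  · rcases hk with hk | hk
    · exact Dvd.dvd.mul_right (Dvd.dvd.mul_left (by simpa using pow_dvd_pow (3 : ℤ) hk) _) _
    · exact (twentyseven_dvd hp3 hk).mul_left _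
  · intro q hq _ h1
    have h3 : q ∣ 1 := by exact_mod_cast h1
    exact absurd (Nat.dvd_one.mp h3) hq.ne_one
  · intro q hq hq3 h1
    have hq' := Nat.prime_iff_prime_int.mp hq
    rcases hq'.dvd_or_dvd h1 with h3 | h3
    · have h4 := hq'.dvd_of_dvd_pow h3
      have h5 : q ∣ 2 := by exact_mod_cast h4
      exact h5.trans (by norm_num)
    · have h4 := hq'.dvd_of_dvd_pow h3
      have h5 : q ∣ 3 := by exact_mod_cast h4
      exact h5.trans (by norm_num)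

/-- **`2ᵐ xᵖ + yᵖ = z³`, `3 ∣ xy`**: no solution with `x y ≠ 0`, `2 x`, `y` coprime. -/
theorem two_pow_mul_pow_add_pow_ne_cube {p : ℕ} (hp : p.Prime) (hp3 : 3 ≤ p)
    (hirr : SemistableIrred p) {x y : ℤ} (hx : x ≠ 0) (hy : y ≠ 0) {m : ℕ}
    (hxy : IsCoprime (2 * x) y) (hthree : (3 : ℤ) ∣ x * y) (z : ℤ) :
    2 ^ m * x ^ p + y ^ p ≠ z ^ 3 := by
  intro h
  have hc1 : IsCoprime (2 ^ m * x) y :=
    IsCoprime.mul_left (hxy.of_mul_left_left.pow_left) hxy.of_mul_left_right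
  have hone : ∀ q : ℕ, q.Prime → q ≠ 3 → (q : ℤ) ∣ 1 → q ∣ 6 := by
    intro q hq _ h1
    have h3 : q ∣ 1 := by exact_mod_cast h1
    exact absurd (Nat.dvd_one.mp h3) hq.ne_one
  have htwo : ∀ q : ℕ, q.Prime → q ≠ 3 → (q : ℤ) ∣ 2 ^ m → q ∣ 6 := by
    intro q hq _ h1
    have h4 := (Nat.prime_iff_prime_int.mp hq).dvd_of_dvd_pow h1
    have h5 : q ∣ 2 := by exact_mod_cast h4
    exact h5.trans (by norm_num)
  have h20 : (2 : ℤ) ^ m ≠ 0 := pow_ne_zero _ two_ne_zero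
  rcases Int.prime_three.dvd_or_dvd hthree with h3 | h3
  · refine three_coeff (A := 1) (x := y) (B := 2 ^ m) (y := x) (L := 6) hp (by omega) hirr
      (z := z) (by rw [one_mul, add_comm]; exact h) (by rw [one_mul]; exact hc1.symm)
      ((twentyseven_dvd hp3 h3).mul_left _) (by simpa using hy) (mul_ne_zero h20 hx)
      (by decide) hone htwo (Or.inl (by norm_num))
  · refine three_coeff (A := 2 ^ m) (x := x) (B := 1) (y := y) (L := 6) hp (by omega) hirr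
      (z := z) (by rw [one_mul]; exact h) (by rw [one_mul]; exact hc1)
      (by rw [one_mul]; exact twentyseven_dvd hp3 h3) (mul_ne_zero h20 hx) (by simpa using hy)
      (by decide) htwo hone (Or.inl (by norm_num))

end Fermat.Agent.Cor
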