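import Fermat.Agent.Corollaries.PP.Seq
import Fermat.Agent.Corollaries.PP.Six
import Fermat.Agent.Corollaries.Mazur.Main

/-!
# Generalized Fermat equations, unconditional form

Throughout `p = 11` or `p ≥ 17` is a prime (Mazur: `W[p]` is irreducible for every semistable
elliptic curve `W` over `ℚ`), and the exponent `n` is any multiple of `p`.

* `PP.pow_add_pow_ne_sq`: `xⁿ + yⁿ = z²` has no solution with `x, y` coprime, `xy` even and `≠ 0`;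
* `PP.pow_add_pow_ne_cube`: `xⁿ + yⁿ = z³` has no solution with `x, y` coprime, `3 ∣ xy ≠ 0`;
* `PP.cube_add_sq_ne_pow`: `x³ ± y² = zⁿ` has no solution with `x, y` coprime, `6 ∣ z ≠ 0`;
* `PP.cube_sub_sq_ne`: `x³ - y² = 1728 A zᵖ`, `A` with prime factors dividing a level of genus zero;
* `PP.two_coeff`, `PP.three_coeff`: the equations `A xᵖ + B yᵖ = z²`, `z³`;
* `PP.sq_add_ne_pow`, `PP.sq_sub_ne_pow`: `z² ± 2ᵏ 3ᵐ`, `z² ± 2ᵏ 5ᵐ` (`k ≥ 6`) is not a `p`-th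
  power prime to the other side;
* `PP.fib_ne_pow`, `PP.pell_ne`, `PP.triangular_ne_pow`: perfect powers among even Fibonacci numbers,
  in solutions of Pell equations and among even triangular numbers;
* `PP.disc_ne`, `PP.mem_of_disc_eq_pow`: the discriminant of a semistable elliptic curve over `ℚ`
  is not `n mᵖ`; if it is a `k`-th power then `k` has prime factors in `{2, 3, 5, 7, 13}` only.
-/

set_option autoImplicit false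

namespace Fermat.Agent.Cor

open WeierstrassCurve

/-- **Mazur**: `W[p]` is irreducible for all semistable `W`, for `p = 11` and `p ≥ 17`. -/
theorem semistableIrred {p : ℕ} (hp : p.Prime) (h : p = 11 ∨ 17 ≤ p) : SemistableIrred p :=
  fun _ hΔ hW => modRepIsIrreducible hp h hΔ hW

namespace PP

variable {p : ℕ}

/-- **Darmon - Merel, even case**: `xⁿ + yⁿ = z²` with `x, y` coprime, `xy` even, `xy ≠ 0` is
impossible if `n` is divisible by `11` or by a prime `p ≥ 17`. -/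
theorem pow_add_pow_ne_sq (hp : p.Prime) (h : p = 11 ∨ 17 ≤ p) {n : ℕ} (hn : p ∣ n) {x y : ℤ}
    (hx : x ≠ 0) (hy : y ≠ 0) (hxy : IsCoprime x y) (heven : (2 : ℤ) ∣ x * y) (z : ℤ) :
    x ^ n + y ^ n ≠ z ^ 2 :=
  pow_add_pow_ne_sq_of_dvd hp (by omega) (semistableIrred hp h) hn hx hy hxy heven z

/-- **Darmon - Merel, `3 ∣ xy`**: `xⁿ + yⁿ = z³` with `x, y` coprime, `3 ∣ xy`, `xy ≠ 0` is
impossible if `n` is divisible by `11` or by a prime `p ≥ 17`. -/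
theorem pow_add_pow_ne_cube (hp : p.Prime) (h : p = 11 ∨ 17 ≤ p) {n : ℕ} (hn : p ∣ n)
    {x y : ℤ} (hx : x ≠ 0) (hy : y ≠ 0) (hxy : IsCoprime x y) (hthree : (3 : ℤ) ∣ x * y)
    (z : ℤ) : x ^ n + y ^ n ≠ z ^ 3 :=
  pow_add_pow_ne_cube_of_dvd hp (by omega) (semistableIrred hp h) hn hx hy hxy hthree z

/-- **Signature `(2, 3, n)`, semistable case**: `x³ + y² = zⁿ` and `x³ - y² = zⁿ` with `x, y`
coprime, `6 ∣ z`, `z ≠ 0` are impossible if `n ≥ 1` is divisible by `11` or by a prime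
`p ≥ 17`. -/
theorem cube_add_sq_ne_pow (hp : p.Prime) (h : p = 11 ∨ 17 ≤ p) {n : ℕ} (hn : p ∣ n)
    (hn0 : n ≠ 0) {x y z : ℤ} (hxy : IsCoprime x y) (hz : z ≠ 0) (h6 : (6 : ℤ) ∣ z) :
    x ^ 3 + y ^ 2 ≠ z ^ n ∧ x ^ 3 - y ^ 2 ≠ z ^ n :=
  cube_add_sq_ne_pow_of_dvd hp (by omega) (semistableIrred hp h) hn hn0 hxy hz h6

/-- `x³ - y² = 1728 A zᵖ` with `x, y` coprime, `A z ≠ 0`, the primes of `A` dividing a level `L`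
of genus zero (`L = 1, ..., 10, 12, 13, 16, 18, 25`), is impossible. -/
theorem cube_sub_sq_ne (hp : p.Prime) (h : p = 11 ∨ 17 ≤ p) {A x y z : ℤ} (hxy : IsCoprime x y)
    (hA0 : A ≠ 0) (hz : z ≠ 0) {L : ℕ} (hL : L ∈ zeroLevels)
    (hA : ∀ q : ℕ, q.Prime → (q : ℤ) ∣ A → q ∣ L) : x ^ 3 - y ^ 2 ≠ 1728 * (A * z ^ p) :=
  fun he => six_coeff hp (by omega) (semistableIrred hp h) he hxy hA0 hz hL hA

/-- **The equation `A xᵖ + B yᵖ = z²`** (Ribet's method; Bennett - Skinner): `A x`, `B y` coprime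
and `≠ 0`, `64 ∣ B yᵖ`, the odd primes of `A B` dividing a level `L` of genus zero, and `L` even or
`v₂(B yᵖ) ≡ 6 mod p`: no solution. -/
theorem two_coeff (hp : p.Prime) (h : p = 11 ∨ 17 ≤ p) {A B x y z : ℤ}
    (he : A * x ^ p + B * y ^ p = z ^ 2) (hcop : IsCoprime (A * x) (B * y))
    (h64 : (64 : ℤ) ∣ B * y ^ p) (hx : A * x ≠ 0) (hy : B * y ≠ 0) {L : ℕ}
    (hL : L ∈ zeroLevels) (hA : ∀ q : ℕ, q.Prime → q ≠ 2 → (q : ℤ) ∣ A → q ∣ L)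
    (hB : ∀ q : ℕ, q.Prime → q ≠ 2 → (q : ℤ) ∣ B → q ∣ L)
    (h2 : 2 ∣ L ∨ p ∣ padicValInt 2 (B * y ^ p / 64)) : False :=
  Cor.two_coeff hp (by omega) (semistableIrred hp h) he hcop h64 hx hy hL hA hB h2

/-- **The equation `A xᵖ + B yᵖ = z³`** (Bennett - Vatsal - Yazdani): `A x`, `B y` coprime and
`≠ 0`, `27 ∣ B yᵖ`, the primes `≠ 3` of `A B` dividing a level `L` of genus zero, and `3 ∣ L` or
`v₃(B yᵖ) ≡ 3 mod p`: no solution. -/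
theorem three_coeff (hp : p.Prime) (h : p = 11 ∨ 17 ≤ p) {A B x y z : ℤ}
    (he : A * x ^ p + B * y ^ p = z ^ 3) (hcop : IsCoprime (A * x) (B * y))
    (h27 : (27 : ℤ) ∣ B * y ^ p) (hx : A * x ≠ 0) (hy : B * y ≠ 0) {L : ℕ}
    (hL : L ∈ zeroLevels) (hA : ∀ q : ℕ, q.Prime → q ≠ 3 → (q : ℤ) ∣ A → q ∣ L)
    (hB : ∀ q : ℕ, q.Prime → q ≠ 3 → (q : ℤ) ∣ B → q ∣ L)
    (h3 : 3 ∣ L ∨ p ∣ padicValInt 3 (B * y ^ p / 27)) : False :=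
  Cor.three_coeff hp (by omega) (semistableIrred hp h) he hcop h27 hx hy hL hA hB h3

/-- **`xᵖ + 2ᵏ yᵖ = z²`**, `x` odd, `x, y` coprime, `xy ≠ 0`, `k ≥ 6` or `y` even: impossible. -/
theorem pow_add_two_pow_mul_pow_ne_sq (hp : p.Prime) (h : p = 11 ∨ 17 ≤ p) {x y : ℤ}
    (hx : x ≠ 0) (hy : y ≠ 0) (hxy : IsCoprime x y) (hodd : ¬ (2 : ℤ) ∣ x) {k : ℕ}
    (hk : 6 ≤ k ∨ (2 : ℤ) ∣ y) (z : ℤ) : x ^ p + 2 ^ k * y ^ p ≠ z ^ 2 :=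
  Cor.pow_add_two_pow_mul_pow_ne_sq hp (by omega) (semistableIrred hp h) hx hy hxy hodd hk z

/-- **`xᵖ + 2ᵏ ℓᵐ yᵖ = z²`**, `ℓ = 3` or `5`, `x` prime to `2 ℓ y`, `xy ≠ 0`, `k ≥ 6` or `y` even:
impossible. -/
theorem pow_add_mul_pow_ne_sq (hp : p.Prime) (h : p = 11 ∨ 17 ≤ p) {ℓ : ℕ}
    (hℓ : ℓ = 3 ∨ ℓ = 5) {x y : ℤ} (hx : x ≠ 0) (hy : y ≠ 0) {k m : ℕ}
    (hxy : IsCoprime x (2 * (ℓ : ℤ) * y)) (hk : 6 ≤ k ∨ (2 : ℤ) ∣ y) (z : ℤ) :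
    x ^ p + 2 ^ k * (ℓ : ℤ) ^ m * y ^ p ≠ z ^ 2 :=
  Cor.pow_add_mul_pow_ne_sq hp (by omega) (semistableIrred hp h) hℓ hx hy hxy hk z

/-- **`xᵖ + 64 ℓᵐ yᵖ = z²`**, `ℓ ∈ {3, 5, 7, 13}`, `x` prime to `2 ℓ y`, `xy ≠ 0`: impossible. -/
theorem pow_add_sixtyfour_mul_pow_ne_sq (hp : p.Prime) (h : p = 11 ∨ 17 ≤ p) {ℓ : ℕ}
    (hℓ : ℓ ∈ [3, 5, 7, 13]) {x y : ℤ} (hx : x ≠ 0) (hy : y ≠ 0) {m : ℕ}
    (hxy : IsCoprime x (2 * (ℓ : ℤ) * y)) (z : ℤ) :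
    x ^ p + 64 * (ℓ : ℤ) ^ m * y ^ p ≠ z ^ 2 :=
  Cor.pow_add_sixtyfour_mul_pow_ne_sq hp (by omega) (semistableIrred hp h) hℓ hx hy hxy z

/-- **`xᵖ + 2ᵐ 3ᵏ yᵖ = z³`**, `x` prime to `6 y`, `xy ≠ 0`, `k ≥ 3` or `3 ∣ y`: impossible. -/
theorem pow_add_mul_pow_ne_cube (hp : p.Prime) (h : p = 11 ∨ 17 ≤ p) {x y : ℤ} (hx : x ≠ 0)
    (hy : y ≠ 0) {k m : ℕ} (hxy : IsCoprime x (6 * y)) (hk : 3 ≤ k ∨ (3 : ℤ) ∣ y) (z : ℤ) :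
    x ^ p + 2 ^ m * 3 ^ k * y ^ p ≠ z ^ 3 :=
  Cor.pow_add_mul_pow_ne_cube hp (by omega) (semistableIrred hp h) hx hy hxy hk z

/-- **Lebesgue - Nagell type**: `z² + 2ᵏ ≠ xⁿ` and `z² - 2ᵏ ≠ xⁿ` for `x` odd, `k ≥ 6`, `p ∣ n`,
`n ≠ 0`. -/
theorem sq_add_two_pow_ne_pow (hp : p.Prime) (h : p = 11 ∨ 17 ≤ p) {n : ℕ} (hn : p ∣ n)
    (hn0 : n ≠ 0) {x : ℤ} (hx : ¬ (2 : ℤ) ∣ x) {k : ℕ} (hk : 6 ≤ k) (z : ℤ) :
    z ^ 2 + 2 ^ k ≠ x ^ n ∧ z ^ 2 - 2 ^ k ≠ x ^ n := by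
  obtain ⟨m, rfl⟩ := hn
  have hm : m ≠ 0 := right_ne_zero_of_mul hn0
  have hx' : ¬ (2 : ℤ) ∣ x ^ m := fun h2 => hx (Int.prime_two.dvd_of_dvd_pow h2)
  rw [mul_comm, pow_mul]
  exact ⟨Cor.sq_add_two_pow_ne_pow hp (by omega) (semistableIrred hp h) hx' hk z,
    Cor.sq_sub_two_pow_ne_pow hp (by omega) (semistableIrred hp h) hx' hk z⟩

/-- **`z² + 2ᵏ ℓᵐ ≠ xⁿ`** for `ℓ = 3, 5`, `x` prime to `2 ℓ`, `k ≥ 6`. -/
theorem sq_add_ne_pow (hp : p.Prime) (h : p = 11 ∨ 17 ≤ p) {n : ℕ} (hn : p ∣ n)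
    {ℓ : ℕ} (hℓ : ℓ = 3 ∨ ℓ = 5) {x : ℤ} (hx0 : x ≠ 0) (hx : IsCoprime x (2 * ℓ)) {k m : ℕ}
    (hk : 6 ≤ k) (z : ℤ) : z ^ 2 + 2 ^ k * (ℓ : ℤ) ^ m ≠ x ^ n := by
  obtain ⟨r, rfl⟩ := hn
  rw [mul_comm p r, pow_mul]
  exact sq_add_mul_pow_ne_pow hp (by omega) (semistableIrred hp h) hℓ (pow_ne_zero _ hx0)
    hx.pow_left hk z

/-- **`z² - 2ᵏ ℓᵐ ≠ xⁿ`** for `ℓ = 3, 5`, `x` prime to `2 ℓ`, `k ≥ 6`. -/
theorem sq_sub_ne_pow (hp : p.Prime) (h : p = 11 ∨ 17 ≤ p) {n : ℕ} (hn : p ∣ n)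
    {ℓ : ℕ} (hℓ : ℓ = 3 ∨ ℓ = 5) {x : ℤ} (hx0 : x ≠ 0) (hx : IsCoprime x (2 * ℓ)) {k m : ℕ}
    (hk : 6 ≤ k) (z : ℤ) : z ^ 2 - 2 ^ k * (ℓ : ℤ) ^ m ≠ x ^ n := by
  obtain ⟨r, rfl⟩ := hn
  rw [mul_comm p r, pow_mul]
  exact sq_sub_mul_pow_ne_pow hp (by omega) (semistableIrred hp h) hℓ (pow_ne_zero _ hx0)
    hx.pow_left hk z

/-- **`z³ ± 2ᵐ 3ᵏ ≠ xⁿ`** for `x` prime to `6`, `k ≥ 3`. -/
theorem cube_add_ne_pow (hp : p.Prime) (h : p = 11 ∨ 17 ≤ p) {n : ℕ} (hn : p ∣ n) {x : ℤ}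
    (hx : IsCoprime x 6) {k m : ℕ} (hk : 3 ≤ k) (z : ℤ) :
    z ^ 3 + 2 ^ m * 3 ^ k ≠ x ^ n ∧ z ^ 3 - 2 ^ m * 3 ^ k ≠ x ^ n := by
  obtain ⟨r, rfl⟩ := hn
  rw [mul_comm p r, pow_mul]
  exact ⟨cube_add_mul_pow_ne_pow hp (by omega) (semistableIrred hp h) hx.pow_left hk z,
    cube_sub_mul_pow_ne_pow hp (by omega) (semistableIrred hp h) hx.pow_left hk z⟩

/-- **Pell equations**: if `z² - d Y² = 1`, `d = 2, 5, 6, 10`, then `Y ≠ 0` is not an `n`-th power,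
`p ∣ n`. -/
theorem pell_ne (hp : p.Prime) (h : p = 11 ∨ 17 ≤ p) {n : ℕ} (hn : p ∣ n) {d : ℕ}
    (hd : d ∈ [2, 5, 6, 10]) {w z : ℤ} (hw : w ≠ 0) : z ^ 2 - (d : ℤ) * (w ^ n) ^ 2 ≠ 1 := by
  obtain ⟨r, rfl⟩ := hn
  rw [mul_comm p r, pow_mul]
  exact Cor.pell_ne hp (by omega) (semistableIrred hp h) hd (pow_ne_zero _ hw)

/-- **Even Fibonacci numbers**: `F_k ≠ yⁿ` for `k ≥ 1`, `F_k` even, `p ∣ n`. -/
theorem fib_ne_pow (hp : p.Prime) (h : p = 11 ∨ 17 ≤ p) {n : ℕ} (hn : p ∣ n) {k : ℕ}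
    (hk : 0 < k) (he : 2 ∣ Nat.fib k) (y : ℕ) : Nat.fib k ≠ y ^ n := by
  obtain ⟨r, rfl⟩ := hn
  rw [mul_comm p r, pow_mul]
  exact Cor.fib_ne_pow hp (by omega) (semistableIrred hp h) hk he _

/-- **Even triangular numbers**: `k (k + 1) / 2 ≠ wⁿ` for `w ≠ 0` even, `p ∣ n`, `n ≠ 0`. -/
theorem triangular_ne_pow (hp : p.Prime) (h : p = 11 ∨ 17 ≤ p) {n : ℕ} (hn : p ∣ n)
    (hn0 : n ≠ 0) {k w : ℤ} (hw : w ≠ 0) (h2 : (2 : ℤ) ∣ w) : k * (k + 1) ≠ 2 * w ^ n := by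
  obtain ⟨r, rfl⟩ := hn
  have hr : r ≠ 0 := right_ne_zero_of_mul hn0
  rw [mul_comm p r, pow_mul]
  exact Cor.triangular_ne_pow hp (by omega) (semistableIrred hp h) (pow_ne_zero _ hw)
    (dvd_pow h2 hr)

/-! ### The discriminant of a semistable elliptic curve -/

/-- **The discriminant of a semistable elliptic curve over `ℚ` is not `n mᵖ`**, `p = 11` or
`p ≥ 17`, the primes of `n` dividing a level of genus zero. -/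
theorem disc_ne (hp : p.Prime) (h : p = 11 ∨ 17 ≤ p) {W : WeierstrassCurve ℤ} (hΔ : W.Δ ≠ 0)
    (hW : W.IsSemistableModel) {L : ℕ} (hL : L ∈ zeroLevels) {n : ℤ}
    (hn : ∀ q : ℕ, q.Prime → (q : ℤ) ∣ n → q ∣ L) (m : ℤ) : W.Δ ≠ n * m ^ p :=
  disc_ne_mul_pow hΔ hW hp (by omega) (modRepIsIrreducible hp h hΔ hW) hL hn m

/-- **If the discriminant of a semistable elliptic curve over `ℚ` is `± mᵏ`, then the prime factors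
of `k` are in `{2, 3, 5, 7, 13}`.** -/
theorem mem_of_disc_eq_pow {W : WeierstrassCurve ℤ} (hΔ : W.Δ ≠ 0) (hW : W.IsSemistableModel)
    {k : ℕ} {m : ℤ} (hk : W.Δ = m ^ k ∨ W.Δ = -m ^ k) (hp : p.Prime) (hpk : p ∣ k) :
    p ∈ ({2, 3, 5, 7, 13} : Finset ℕ) := by
  by_contra hcon
  have h17 : p = 11 ∨ 17 ≤ p := by
    by_contra h1
    push Not at h1
    have h2 : ∀ p < 17, p.Prime → p ≠ 11 → p ∈ ({2, 3, 5, 7, 13} : Finset ℕ) := by decide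
    exact hcon (h2 p h1.2 hp h1.1)
  obtain ⟨l, rfl⟩ := hpk
  have hodd : Odd p := hp.odd_of_ne_two (by omega)
  have hone : ∀ q : ℕ, q.Prime → (q : ℤ) ∣ 1 → q ∣ 1 := fun q _ h1 => by exact_mod_cast h1
  rcases hk with hk | hk
  · refine disc_ne hp h17 hΔ hW (L := 1) (by decide) (n := 1) hone (m ^ l) ?_
    rw [hk, one_mul, ← pow_mul, mul_comm]
  · refine disc_ne hp h17 hΔ hW (L := 1) (by decide) (n := 1) hone (-m ^ l) ?_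
    rw [hk, one_mul, hodd.neg_pow, ← pow_mul, mul_comm]

end PP

end Fermat.Agent.Cor
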