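import Fermat.Agent.Corollaries.PP.Main

/-!
# Pythagorean triangles and the equation `x² - y⁴ = zⁿ`

Again `p = 11` or `p ≥ 17` is a prime and `p ∣ n`.

* `PP.pythagorean_legs`: the two legs of a Pythagorean triangle are not both `n`-th powers
  (`a, b, c` arbitrary integers, `a b ≠ 0`: no coprimality, no parity condition);
* `PP.sq_sub_fourth_ne_pow`: `x² - y⁴ = zⁿ` has no solution with `x, y` coprime and `z ≠ 0` even;
* `PP.two_pow_three_pow`: `|2ᵃ - 3ᵇ| = 1` implies `a ≤ 3` (Levi ben Gerson).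
-/

set_option autoImplicit false

namespace Fermat.Agent.Cor.PP

variable {p : ℕ}

/-- **Pythagorean triangles whose legs are `n`-th powers do not exist**, `n` divisible by `11` or by
a prime `p ≥ 17`: `(aⁿ)² + (bⁿ)² = c²` implies `a b = 0`. -/
theorem pythagorean_legs (hp : p.Prime) (h : p = 11 ∨ 17 ≤ p) {n : ℕ} (hn : p ∣ n)
    {a b : ℤ} (ha : a ≠ 0) (hb : b ≠ 0) (c : ℤ) :
    (a ^ n) ^ 2 + (b ^ n) ^ 2 ≠ c ^ 2 := by
  intro he
  obtain ⟨a', b', hcop, ha', hb'⟩ : ∃ a' b' : ℤ, IsCoprime a' b' ∧ a = Int.gcd a b * a' ∧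
      b = Int.gcd a b * b' := by
    have hg : 0 < Int.gcd a b := Int.gcd_pos_of_ne_zero_left b ha
    obtain ⟨a', ha'⟩ := Int.gcd_dvd_left (a := a) (b := b)
    obtain ⟨b', hb'⟩ := Int.gcd_dvd_right (a := a) (b := b)
    refine ⟨a', b', ?_, ha', hb'⟩
    have h1 : IsCoprime (a / Int.gcd a b) (b / Int.gcd a b) :=
      Int.isCoprime_iff_gcd_eq_one.mpr (Int.gcd_div_gcd_div_gcd hg)
    have hg0 : ((Int.gcd a b : ℕ) : ℤ) ≠ 0 := by exact_mod_cast hg.ne'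
    have h2 : a / Int.gcd a b = a' := Int.ediv_eq_of_eq_mul_right hg0 ha'
    have h3 : b / Int.gcd a b = b' := Int.ediv_eq_of_eq_mul_right hg0 hb'
    rwa [h2, h3] at h1
  set g : ℤ := (Int.gcd a b : ℤ) with hg
  have hg0 : g ≠ 0 := by
    intro h0
    rw [h0, zero_mul] at ha'
    exact ha ha'
  have ha0 : a' ≠ 0 := fun h0 => ha (by rw [ha', h0, mul_zero])
  have hb0 : b' ≠ 0 := fun h0 => hb (by rw [hb', h0, mul_zero])
  have h1 : (g ^ n) ^ 2 * ((a' ^ n) ^ 2 + (b' ^ n) ^ 2) = c ^ 2 := by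
    rw [← he]
    conv_rhs => rw [ha', hb']
    rw [mul_pow, mul_pow]
    ring
  have h2 : g ^ n ∣ c := by
    rw [← Int.pow_dvd_pow_iff (n := 2) two_ne_zero, ← h1]
    exact dvd_mul_right _ _
  obtain ⟨d, rfl⟩ := h2
  have h3 : (a' ^ n) ^ 2 + (b' ^ n) ^ 2 = d ^ 2 := by
    rw [mul_pow] at h1
    exact mul_left_cancel₀ (pow_ne_zero _ (pow_ne_zero _ hg0)) h1
  have h4 : (a' ^ 2) ^ n + (b' ^ 2) ^ n = d ^ 2 := by
    rw [← h3, ← pow_mul, ← pow_mul, ← pow_mul, ← pow_mul, mul_comm 2 n]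
  by_cases heven : (2 : ℤ) ∣ a' * b'
  · refine pow_add_pow_ne_sq hp h hn (pow_ne_zero 2 ha0) (pow_ne_zero 2 hb0) hcop.pow ?_ d h4
    rw [← mul_pow]
    exact dvd_pow heven two_ne_zero
  · have ha2 : ¬ (2 : ℤ) ∣ a' ^ n := fun hd =>
      heven ((Int.prime_two.dvd_of_dvd_pow hd).mul_right _)
    have hb2 : ¬ (2 : ℤ) ∣ b' ^ n := fun hd =>
      heven ((Int.prime_two.dvd_of_dvd_pow hd).mul_left _)
    have hsq : ∀ t : ℤ, ¬ (2 : ℤ) ∣ t → t ^ 2 % 8 = 1 := by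
      intro t ht
      have h5 : t % 8 = 1 ∨ t % 8 = 3 ∨ t % 8 = 5 ∨ t % 8 = 7 := by omega
      rcases h5 with h5 | h5 | h5 | h5 <;> rw [pow_two, Int.mul_emod, h5] <;> norm_num
    have h6 := hsq _ ha2
    have h7 := hsq _ hb2
    rcases sq_emod_eight d with h8 | h8 | h8 <;> omega

/-- **`x² - y⁴ = zⁿ`** with `x, y` coprime and `z ≠ 0` even is impossible, `n` divisible by `11` or
by a prime `p ≥ 17`. -/
theorem sq_sub_fourth_ne_pow (hp : p.Prime) (h : p = 11 ∨ 17 ≤ p) {n : ℕ} (hn : p ∣ n)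
    (hn0 : n ≠ 0) {x y z : ℤ} (hxy : IsCoprime x y) (hz : z ≠ 0) (h2 : (2 : ℤ) ∣ z) :
    x ^ 2 - y ^ 4 ≠ z ^ n := by
  -- reduction to `n = p`
  suffices key : ∀ z : ℤ, z ≠ 0 → (2 : ℤ) ∣ z → x ^ 2 - y ^ 4 ≠ z ^ p by
    obtain ⟨m, rfl⟩ := hn
    have hm : m ≠ 0 := right_ne_zero_of_mul hn0
    rw [mul_comm, pow_mul]
    exact key _ (pow_ne_zero _ hz) (dvd_pow h2 hm)
  clear hz h2 z hn hn0 n
  intro z hz h2 he
  have hp2 : p ≠ 2 := by omega
  have hodd : Odd p := hp.odd_of_ne_two hp2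
  obtain ⟨w, rfl⟩ := h2
  have hw : w ≠ 0 := right_ne_zero_of_mul hz
  obtain ⟨m, hm⟩ : ∃ m, p = m + 2 := ⟨p - 2, by omega⟩
  have hz4 : (2 * w) ^ p = 4 * (2 ^ m * w ^ p) := by
    rw [mul_pow]
    conv_lhs => rw [hm, pow_add 2 m 2]
    rw [← hm]
    ring
  have heven : (2 : ℤ) ∣ x ^ 2 - y ^ 4 := by
    rw [he, hz4]
    exact Dvd.dvd.mul_right (by norm_num) _
  -- `x` and `y` are odd
  have hx2 : ¬ (2 : ℤ) ∣ x := by
    intro hx
    have h3 : (2 : ℤ) ∣ y ^ 4 := (dvd_sub_right (dvd_pow hx two_ne_zero)).mp heven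
    exact Int.prime_two.not_isUnit (hxy.isUnit_of_dvd' hx (Int.prime_two.dvd_of_dvd_pow h3))
  have hy2 : ¬ (2 : ℤ) ∣ y := by
    intro hy
    have h3 : (2 : ℤ) ∣ x ^ 2 := (dvd_sub_left (dvd_pow hy four_ne_zero)).mp heven
    exact hx2 (Int.prime_two.dvd_of_dvd_pow h3)
  have hyy : ¬ (2 : ℤ) ∣ y ^ 2 := fun h3 => hy2 (Int.prime_two.dvd_of_dvd_pow h3)
  obtain ⟨u, hu⟩ : ∃ u, x + y ^ 2 = 2 * u := by
    have : (2 : ℤ) ∣ x + y ^ 2 := by omega
    exact this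
  obtain ⟨v, hv⟩ : ∃ v, x - y ^ 2 = 2 * v := by
    have : (2 : ℤ) ∣ x - y ^ 2 := by omega
    exact this
  have huv : u * v = 2 ^ m * w ^ p := by
    have h3 : 4 * (u * v) = 4 * (2 ^ m * w ^ p) := by
      rw [← hz4, ← he]
      have : 4 * (u * v) = (2 * u) * (2 * v) := by ring
      rw [this, ← hu, ← hv]
      ring
    exact mul_left_cancel₀ (by norm_num) h3
  have hsub : u - v = y ^ 2 := by linarith
  have hadd : u + v = x := by linarith
  have hcop : IsCoprime u v := by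
    have h3 : IsCoprime (u + v) (u - v) := by
      rw [hadd, hsub]; exact hxy.pow_right
    rw [Int.isCoprime_iff_gcd_eq_one] at h3 ⊢
    have h4 : (Int.gcd u v : ℤ) ∣ Int.gcd (u + v) (u - v) :=
      Int.dvd_coe_gcd (dvd_add (Int.gcd_dvd_left ..) (Int.gcd_dvd_right ..))
        (dvd_sub (Int.gcd_dvd_left ..) (Int.gcd_dvd_right ..))
    rw [h3] at h4
    have h5 : Int.gcd u v ∣ 1 := by exact_mod_cast h4
    exact Nat.dvd_one.mp h5
  -- the even one of `u, v`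
  have hm6 : 6 ≤ m := by omega
  have heither : ∀ u v : ℤ, u * v = 2 ^ m * w ^ p → IsCoprime u v → (2 : ℤ) ∣ v →
      ∃ a b : ℤ, a ≠ 0 ∧ b ≠ 0 ∧ IsCoprime a b ∧ ¬ (2 : ℤ) ∣ a ∧ u = a ^ p ∧
        v = 2 ^ m * b ^ p := by
    intro u v huv hcop hv2
    have hu2 : ¬ (2 : ℤ) ∣ u := fun hu =>
      Int.prime_two.not_isUnit (hcop.isUnit_of_dvd' hu hv2)
    have hc2 : IsCoprime (2 : ℤ) u := (Int.prime_two.irreducible.coprime_iff_not_dvd).mpr hu2
    have hdv : (2 : ℤ) ^ m ∣ v := by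
      have h3 : (2 : ℤ) ^ m ∣ u * v := by rw [huv]; exact dvd_mul_right _ _
      exact (hc2.pow_left (m := m)).dvd_of_dvd_mul_left h3
    obtain ⟨v', rfl⟩ := hdv
    have h3 : u * v' = w ^ p := by
      have h4 : (2 : ℤ) ^ m * (u * v') = 2 ^ m * w ^ p := by rw [← huv]; ring
      exact mul_left_cancel₀ (pow_ne_zero _ two_ne_zero) h4
    have hcop' : IsCoprime u v' := hcop.of_mul_right_right
    obtain ⟨a, ha⟩ := Int.eq_pow_of_mul_eq_pow_odd_left hcop' hodd h3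
    obtain ⟨b, hb⟩ := Int.eq_pow_of_mul_eq_pow_odd_right hcop' hodd h3
    have huv0 : u * v' ≠ 0 := by rw [h3]; exact pow_ne_zero _ hw
    have ha0 : a ≠ 0 := by
      rintro rfl
      rw [zero_pow hp.ne_zero] at ha
      exact left_ne_zero_of_mul huv0 ha
    have hb0 : b ≠ 0 := by
      rintro rfl
      rw [zero_pow hp.ne_zero] at hb
      exact right_ne_zero_of_mul huv0 hb
    refine ⟨a, b, ha0, hb0, ?_, ?_, ha, by rw [hb]⟩
    · rw [ha, hb] at hcop'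
      exact (IsCoprime.pow_iff hp.pos hp.pos).mp hcop'
    · intro h2a
      exact hu2 (by rw [ha]; exact dvd_pow h2a hp.ne_zero)
  have hpar : (2 : ℤ) ∣ u ∨ (2 : ℤ) ∣ v := by
    have h3 : (2 : ℤ) ∣ u * v := by
      rw [huv]
      exact Dvd.dvd.mul_right (dvd_pow_self 2 (by omega)) _
    exact Int.prime_two.dvd_or_dvd h3
  rcases hpar with h2u | h2v
  · obtain ⟨a, b, ha0, hb0, hab, ha2, hva, hub⟩ :=
      heither v u (by rw [mul_comm]; exact huv) hcop.symm h2u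
    refine pow_add_two_pow_mul_pow_ne_sq hp h (x := -a) (y := b) (neg_ne_zero.mpr ha0) hb0
      hab.neg_left (fun h3 => ha2 ((dvd_neg).mp h3)) (k := m) (Or.inl hm6) y ?_
    rw [hodd.neg_pow, ← hva, ← hub, ← hsub]
    ring
  · obtain ⟨a, b, ha0, hb0, hab, ha2, hua, hvb⟩ := heither u v huv hcop h2v
    refine pow_add_two_pow_mul_pow_ne_sq hp h (x := a) (y := -b) ha0 (neg_ne_zero.mpr hb0)
      hab.neg_right ha2 (k := m) (Or.inl hm6) y ?_
    rw [hodd.neg_pow, ← hua, mul_neg, ← hvb, ← hsub]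
    ring

/-- **Levi ben Gerson's theorem**: `|2ᵃ - 3ᵇ| = 1` implies `a ≤ 3`.  (An amusing special case of
`1 + 2ᵏ 3ᵐ ≠ z²` for `k ≥ 6`.) -/
theorem two_pow_three_pow {a b : ℕ} (h : (2 : ℤ) ^ a - 3 ^ b = 1 ∨ (2 : ℤ) ^ a - 3 ^ b = -1) :
    a ≤ 3 := by
  by_contra hcon
  have h1 : ((2 : ℤ) ^ a - 3 ^ b) ^ 2 = 1 := by
    rcases h with h | h <;> rw [h] <;> norm_num
  refine pow_add_mul_pow_ne_sq (p := 11) (by norm_num) (Or.inl rfl) (ℓ := 3) (Or.inl rfl)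
    (x := 1) (y := 1) one_ne_zero one_ne_zero (k := a + 2) (m := b) isCoprime_one_left
    (Or.inl (by omega)) (2 ^ a + 3 ^ b) ?_
  rw [one_pow, mul_one, pow_add]
  push_cast
  linear_combination -h1

end Fermat.Agent.Cor.PP
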